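/-
S43 (route TWX) : THE TAME RELATION.  For a place `A | ℓ`, `ℓ ≠ p`, there is `σ` in the inertia group of `A` such that for every smooth
homomorphism `r : G_ℚ → B` which maps the inertia group to a `p`-group:
* `r(I_A)` is generated by `r σ`;
* `r φ * r σ * (r φ)⁻¹ = r σ ^ ℓ` for every Frobenius element `φ` at `A`.
Inputs: `S56/Lq` (`Hom_cont(I, 𝔽_p) = 𝔽_p κ`), the Burnside basis theorem, the Kummer character of `ℓ ^ (1 / p ^ m)`.
-/
import Fermat.Agent.S56.Lq.TameMain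
import Fermat.Agent.GAL.Cyclo

set_option autoImplicit false

open ExtCitation
open scoped Pointwise

namespace Fermat.Agent.S43.TameRel

/-! ### Group theory -/

section Grp

variable {G : Type*} [Group G] [Finite G] {p : ℕ} [Fact p.Prime]

/-- a maximal subgroup of a finite `p`-group has index `p`. -/
theorem index_of_isCoatom (hG : IsPGroup p G) {M : Subgroup G} (hM : IsCoatom M) : M.index = p := by
  have hp : p.Prime := Fact.out
  obtain ⟨N, hN⟩ := IsPGroup.iff_card.1 hG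
  obtain ⟨n, hn⟩ := IsPGroup.iff_card.1 (hG.to_subgroup M)
  have hlt : n < N := by
    by_contra hcon
    push Not at hcon
    have h1 : Nat.card G ≤ Nat.card M := by
      rw [hN, hn]
      exact Nat.pow_le_pow_right hp.pos hcon
    exact hM.1 (Subgroup.eq_top_of_le_card M h1)
  obtain ⟨K, hK, hMK⟩ := Sylow.exists_subgroup_card_pow_succ (p := p) (n := n)
    (by rw [hN]; exact pow_dvd_pow p hlt) hn
  have hne : M ≠ K := by
    rintro rfl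
    rw [hn] at hK
    exact absurd (Nat.pow_right_injective hp.two_le hK) (by omega)
  have hKtop : K = ⊤ := hM.2 K (lt_of_le_of_ne hMK hne)
  have hcard : Nat.card G = p ^ (n + 1) := by
    rw [← hK, hKtop, Subgroup.card_top]
  have h2 := M.card_mul_index
  rw [hn, hcard, pow_succ] at h2
  exact Nat.eq_of_mul_eq_mul_left (pow_pos hp.pos n) h2

/-- **Burnside basis theorem, cyclic case.** -/
theorem zpowers_eq_top (hG : IsPGroup p G) (g₀ : G)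
    (h : ∀ χ : G →* Multiplicative (ZMod p), χ g₀ = 1 → ∀ g, χ g = 1) :
    Subgroup.zpowers g₀ = ⊤ := by
  have hp : p.Prime := Fact.out
  by_contra hne
  obtain ⟨M, hM, hle⟩ := (eq_top_or_exists_le_coatom (Subgroup.zpowers g₀)).resolve_left hne
  have hnil : Group.IsNilpotent G := hG.isNilpotent
  have htf : Group.IsNilpotent G → ∀ H : Subgroup G, IsCoatom H → H.Normal :=
    ((Group.isNilpotent_of_finite_tfae (G := G)).out 0 2).1
  have hMn : M.Normal := htf hnil M hM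
  have hidx := index_of_isCoatom hG hM
  have hc1 : Nat.card (G ⧸ M) = p := hidx
  have hc2 : Nat.card (Multiplicative (ZMod p)) = p := by
    rw [Nat.card_eq_fintype_card]
    simp [ZMod.card]
  let e : (G ⧸ M) ≃* Multiplicative (ZMod p) := mulEquivOfPrimeCardEq hc1 hc2
  let χ : G →* Multiplicative (ZMod p) := e.toMonoidHom.comp (QuotientGroup.mk' M)
  have h0 : χ g₀ = 1 := by
    have : (QuotientGroup.mk' M) g₀ = 1 :=
      (QuotientGroup.eq_one_iff g₀).2 (hle (Subgroup.mem_zpowers g₀))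
    show e ((QuotientGroup.mk' M) g₀) = 1
    rw [this, map_one]
  apply hM.1
  rw [eq_top_iff]
  intro g _
  have h1 : e ((QuotientGroup.mk' M) g) = 1 := h χ h0 g
  have h2 : (QuotientGroup.mk' M) g = 1 := by
    rw [← map_one e] at h1
    exact e.injective h1
  exact (QuotientGroup.eq_one_iff g).1 h2

end Grp

/-! ### Arithmetic -/

open Fermat.Agent.PT Fermat.Agent.S56.Lq
open Fermat.Agent.PT.Local (Qb Plc li lg lf IsUnif Fld)
open Fermat.Agent.S36R.K0L (isUnif_ell li_bot)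

variable {p : ℕ} [Fact p.Prime] (P : Plc)

/-- smoothness of a homomorphism defined on the inertia group. -/
def SmoothI {C : Type*} [Group C] (ψ : P.ine →* C) : Prop :=
  ∃ U ∈ Lall, ∀ u : P.ine, (u : GQ) ∈ U → ψ u = 1

theorem finite_range {C : Type*} [Group C] {ψ : P.ine →* C} (hs : SmoothI P ψ) :
    Finite ψ.range := by
  obtain ⟨U, hU, h⟩ := hs
  have hfi : U.FiniteIndex := Lall.finiteIndex' U hU
  have h1 : (U.subgroupOf P.ine).FiniteIndex := inferInstance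
  have h2 : U.subgroupOf P.ine ≤ ψ.ker := fun u hu => MonoidHom.mem_ker.2 (h u hu)
  have h3 : ψ.ker.FiniteIndex := Subgroup.finiteIndex_of_le h2
  exact Finite.of_equiv _ (QuotientGroup.quotientKerEquivRange ψ).toEquiv

/-- **procyclicity of the pro-`p` part of the inertia group.** -/
theorem cyc (hℓ : P.ℓ ≠ p) {β : Qb} (hβ : β ^ p = (P.ℓ : Qb)) {τ₀ : GQ} (hτ₀ : τ₀ ∈ P.ine)
    (h1 : kapR p β τ₀ = 1) {C : Type*} [Group C] (ψ : P.ine →* C) (hs : SmoothI P ψ)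
    (hp : ∀ τ, ∃ k : ℕ, ψ τ ^ p ^ k = 1) (τ : P.ine) :
    ψ τ ∈ Subgroup.zpowers (ψ ⟨τ₀, hτ₀⟩) := by
  have hfin : Finite ψ.range := finite_range P hs
  have hG : IsPGroup p ψ.range := by
    rintro ⟨_, t, rfl⟩
    obtain ⟨k, hk⟩ := hp t
    exact ⟨k, Subtype.ext hk⟩
  have key : Subgroup.zpowers (ψ.rangeRestrict ⟨τ₀, hτ₀⟩) = ⊤ := by
    refine zpowers_eq_top hG _ ?_
    intro χ hχ
    set c₀ : P.ine → ZMod p := fun t => Multiplicative.toAdd (χ (ψ.rangeRestrict t)) with hc₀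
    have hadd : ∀ s t : P.ine, c₀ (s * t) = c₀ s + c₀ t := by
      intro s t
      simp only [hc₀, map_mul, toAdd_mul]
    have hsm : SmoothOn1 Lall (li P ⊥) (extZ P.ine c₀) := by
      obtain ⟨U, hU, h⟩ := hs
      refine ⟨U, hU, fun v hv u hu huU => ?_⟩
      rw [li_bot] at hv hu
      rw [extZ_apply _ c₀ (P.ine.mul_mem hv hu), extZ_apply _ c₀ hv]
      have e1 : (⟨v * u, P.ine.mul_mem hv hu⟩ : P.ine) = ⟨v, hv⟩ * ⟨u, hu⟩ := rfl
      rw [e1, hadd]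
      have e2 : c₀ ⟨u, hu⟩ = 0 := by
        have e3 : ψ.rangeRestrict ⟨u, hu⟩ = 1 := Subtype.ext (h ⟨u, hu⟩ huU)
        simp only [hc₀, e3, map_one, toAdd_one]
      rw [e2, add_zero]
    obtain ⟨i, hi⟩ := tame_gen P ⊥ hℓ (isUnif_ell P) hβ (extZ P.ine c₀) hsm (by
      intro s hs' t ht
      rw [li_bot] at hs' ht
      rw [extZ_apply _ c₀ (P.ine.mul_mem hs' ht), extZ_apply _ c₀ hs', extZ_apply _ c₀ ht]
      exact hadd ⟨s, hs'⟩ ⟨t, ht⟩)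
    have hi0 : i = 0 := by
      have e := hi τ₀ (by rw [li_bot]; exact hτ₀)
      rw [extZ_apply _ c₀ hτ₀, h1, mul_one] at e
      rw [← e]
      simp only [hc₀, hχ, toAdd_one]
    rintro ⟨_, t, rfl⟩
    have e := hi t (by rw [li_bot]; exact t.2)
    rw [extZ_apply _ c₀ t.2, hi0, zero_mul] at e
    exact Multiplicative.toAdd.injective e
  have hmem : ψ.rangeRestrict τ ∈ Subgroup.zpowers (ψ.rangeRestrict ⟨τ₀, hτ₀⟩) := by
    rw [key]
    trivial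
  obtain ⟨j, hj⟩ := Subgroup.mem_zpowers_iff.1 hmem
  refine Subgroup.mem_zpowers_iff.2 ⟨j, ?_⟩
  have := congrArg Subtype.val hj
  simpa using this

/-- A Frobenius element raises the `m`-th roots of unity (`ℓ ∤ m`) to the `ℓ`-th power. -/
theorem frob_root' {m : ℕ} (hm : ¬ P.ℓ ∣ m) {φ : GQ} (hφ : P.A.IsFrobeniusAt φ P.ℓ) {z : Qb}
    (hz : z ^ m = 1) : φ z = z ^ P.ℓ := by
  have hm0 : m ≠ 0 := by rintro rfl; exact hm (dvd_zero _)
  have hzA : z ∈ P.A := GAL.Cyclo.mem_of_pow_eq_one P.A hm0 hz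
  refine GAL.Cyclo.eq_of_sub_mem_nonunits P.A P.prime P.liesOver hm ?_ ?_
    (GAL.Cyclo.sub_pow_mem_of_isFrobeniusAt hφ hzA)
  · rw [← map_pow, hz, map_one]
  · rw [← pow_mul, mul_comm, pow_mul, hz, one_pow]

/-- the Kummer character of `γ` on the inertia group (`γ ^ n` rational, `n` prime to `ℓ`). -/
noncomputable def kum {n : ℕ} (hn : n ≠ 0) (hcop : Nat.Coprime n P.ℓ) {γ : Qb} (hγ0 : γ ≠ 0)
    (hγ : ∀ g : GQ, g (γ ^ n) = γ ^ n) : P.ine →* Qbˣ where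
  toFun τ := Units.mk0 ((τ : GQ) γ / γ) (div_ne_zero ((map_ne_zero _).2 hγ0) hγ0)
  map_one' := by
    ext
    show (1 : GQ) γ / γ = 1
    exact div_self hγ0
  map_mul' σ τ := by
    ext
    show ((σ : GQ) * (τ : GQ)) γ / γ = ((σ : GQ) γ / γ) * ((τ : GQ) γ / γ)
    have hz : ((τ : GQ) γ / γ) ^ n = 1 := by
      rw [div_pow, ← map_pow, hγ, div_self (pow_ne_zero n hγ0)]
    have hfix : (σ : GQ) ((τ : GQ) γ / γ) = (τ : GQ) γ / γ :=
      Levels_inertia_fix_root P.A hn hcop P.liesOver σ.2 hz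
    have h1 : ((σ : GQ) * (τ : GQ)) γ = (σ : GQ) ((τ : GQ) γ) := rfl
    have h2 : (τ : GQ) γ = ((τ : GQ) γ / γ) * γ := by field_simp
    rw [h1]
    conv_lhs => rw [h2, map_mul, hfix]
    field_simp

theorem kum_val {n : ℕ} (hn : n ≠ 0) (hcop : Nat.Coprime n P.ℓ) {γ : Qb} (hγ0 : γ ≠ 0)
    (hγ : ∀ g : GQ, g (γ ^ n) = γ ^ n) (τ : P.ine) :
    ((kum P hn hcop hγ0 hγ τ : Qbˣ) : Qb) = (τ : GQ) γ / γ := rfl

theorem conj_mem_ine {φ τ : GQ} (hφ : φ ∈ P.dec) (hτ : τ ∈ P.ine) : φ * τ * φ⁻¹ ∈ P.ine := by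
  have h := Levels_conj_mem_inertiaSubgroupIn P.A φ τ hτ
  have h2 : φ • P.A = P.A := hφ
  rwa [h2] at h

/-- **the tame relation.** -/
theorem rel (hℓ : P.ℓ ≠ p) {β : Qb} (hβ : β ^ p = (P.ℓ : Qb)) {τ₀ : GQ} (hτ₀ : τ₀ ∈ P.ine)
    (h1 : kapR p β τ₀ = 1) {B : Type*} [Group B] (r : GQ →* B) (hs : ∃ U ∈ Lall, U ≤ r.ker)
    (hp : ∀ τ ∈ P.ine, ∃ k : ℕ, r τ ^ p ^ k = 1) {φ : GQ} (hφ : P.A.IsFrobeniusAt φ P.ℓ) :
    r φ * r τ₀ * (r φ)⁻¹ = r τ₀ ^ P.ℓ := by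
  have hpp : p.Prime := Fact.out
  obtain ⟨m, hm⟩ := hp τ₀ hτ₀
  obtain ⟨γ, hγ⟩ := IsAlgClosed.exists_pow_nat_eq β (pow_pos hpp.pos m)
  have hβ0 : β ≠ 0 := by
    rintro rfl
    rw [zero_pow hpp.ne_zero] at hβ
    exact P.prime.ne_zero (by exact_mod_cast hβ.symm)
  have hγ0 : γ ≠ 0 := by
    rintro rfl
    rw [zero_pow (pow_pos hpp.pos m).ne'] at hγ
    exact hβ0 hγ.symm
  set n : ℕ := p ^ m * p with hn
  have hn0 : n ≠ 0 := mul_ne_zero (pow_pos hpp.pos m).ne' hpp.ne_zero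
  have hγn : γ ^ n = (P.ℓ : Qb) := by rw [hn, pow_mul, hγ, hβ]
  have hfixn : ∀ g : GQ, g (γ ^ n) = γ ^ n := fun g => by rw [hγn, map_natCast]
  have hcop : Nat.Coprime n P.ℓ :=
    Nat.Coprime.mul_left (Nat.Coprime.pow_left m ((Nat.coprime_primes hpp P.prime).2 (Ne.symm hℓ)))
      ((Nat.coprime_primes hpp P.prime).2 (Ne.symm hℓ))
  have hndvd : ¬ P.ℓ ∣ n := fun h =>
    P.prime.one_lt.ne' (Nat.Coprime.eq_one_of_dvd hcop.symm h)
  set k := kum P hn0 hcop hγ0 hfixn with hk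
  set ψ : P.ine →* B × Qbˣ := (r.comp P.ine.subtype).prod k with hψ
  have hkn : ∀ τ : P.ine, k τ ^ n = 1 := by
    intro τ
    ext
    rw [Units.val_pow_eq_pow_val, kum_val, div_pow, ← map_pow, hfixn, div_self (pow_ne_zero n hγ0),
      Units.val_one]
  have hsψ : SmoothI P ψ := by
    obtain ⟨U, hU, hUr⟩ := hs
    obtain ⟨U', hU', hUγ⟩ := exists_level_fixing γ
    obtain ⟨W, hW, hWU, hWU'⟩ := Lall.directed' U hU U' hU'
    refine ⟨W, hW, fun u hu => ?_⟩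
    refine Prod.ext (MonoidHom.mem_ker.1 (hUr (hWU hu))) ?_
    ext
    show (u : GQ) γ / γ = 1
    rw [hUγ u (hWU' hu), div_self hγ0]
  have hpψ : ∀ τ, ∃ j : ℕ, ψ τ ^ p ^ j = 1 := by
    intro τ
    obtain ⟨j, hj⟩ := hp τ τ.2
    refine ⟨j + (m + 1), Prod.ext ?_ ?_⟩
    · show r τ ^ p ^ (j + (m + 1)) = 1
      rw [pow_add, pow_mul, hj, one_pow]
    · show k τ ^ p ^ (j + (m + 1)) = 1
      rw [pow_add, mul_comm, pow_mul, pow_succ, ← hn, hkn, one_pow]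
  have hτ₁ : φ * τ₀ * φ⁻¹ ∈ P.ine := conj_mem_ine P hφ.mem_decompositionSubgroup hτ₀
  obtain ⟨j, hj⟩ := Subgroup.mem_zpowers_iff.1
    (cyc P hℓ hβ hτ₀ h1 ψ hsψ hpψ ⟨φ * τ₀ * φ⁻¹, hτ₁⟩)
  have hjr : r τ₀ ^ j = r (φ * τ₀ * φ⁻¹) := congrArg Prod.fst hj
  have hjk : k ⟨τ₀, hτ₀⟩ ^ j = k ⟨φ * τ₀ * φ⁻¹, hτ₁⟩ := congrArg Prod.snd hj
  -- the value of `k` at the conjugate
  set z₀ : Qb := τ₀ γ / γ with hz₀
  have hz₀n : z₀ ^ n = 1 := by
    have := congrArg Units.val (hkn ⟨τ₀, hτ₀⟩)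
    rwa [Units.val_pow_eq_pow_val, kum_val, Units.val_one] at this
  have hconj : k ⟨φ * τ₀ * φ⁻¹, hτ₁⟩ = k ⟨τ₀, hτ₀⟩ ^ P.ℓ := by
    ext
    rw [Units.val_pow_eq_pow_val, kum_val, kum_val]
    show (φ * τ₀ * φ⁻¹) γ / γ = z₀ ^ P.ℓ
    set γ' : Qb := φ⁻¹ γ with hγ'
    have hγ'0 : γ' ≠ 0 := (map_ne_zero _).2 hγ0
    have hξ : (γ' / γ) ^ n = 1 := by
      rw [div_pow, hγ', ← map_pow, hfixn, div_self (pow_ne_zero n hγ0)]
    have hfixξ : τ₀ (γ' / γ) = γ' / γ := Levels_inertia_fix_root P.A hn0 hcop P.liesOver hτ₀ hξ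
    have e1 : τ₀ γ' = z₀ * γ' := by
      have : γ' = (γ' / γ) * γ := by field_simp
      conv_lhs => rw [this, map_mul, hfixξ]
      rw [hz₀]
      field_simp
    have e2 : (φ * τ₀ * φ⁻¹) γ = φ (τ₀ γ') := rfl
    have e3 : φ γ' = γ := by
      show (φ * φ⁻¹) γ = γ
      rw [mul_inv_cancel]
      rfl
    rw [e2, e1, map_mul, e3, frob_root' P hndvd hφ hz₀n]
    field_simp
  -- the order of `k τ₀`
  have hord : orderOf (k ⟨τ₀, hτ₀⟩) = p ^ (m + 1) := by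
    have hdvd : orderOf (k ⟨τ₀, hτ₀⟩) ∣ p ^ (m + 1) := by
      rw [pow_succ, ← hn]
      exact orderOf_dvd_of_pow_eq_one (hkn _)
    obtain ⟨a, ha, hoa⟩ := (Nat.dvd_prime_pow hpp).1 hdvd
    rcases Nat.lt_or_ge m a with h | h
    · have : a = m + 1 := by omega
      rw [hoa, this]
    · exfalso
      have e1 : k ⟨τ₀, hτ₀⟩ ^ p ^ m = 1 := by
        obtain ⟨b, rfl⟩ := Nat.exists_eq_add_of_le h
        rw [pow_add, pow_mul, ← hoa, pow_orderOf_eq_one, one_pow]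
      have e2 := congrArg Units.val e1
      rw [Units.val_pow_eq_pow_val, kum_val, Units.val_one, div_pow, ← map_pow, hγ] at e2
      have hfixβ : τ₀ (β ^ p) = β ^ p := by rw [hβ, map_natCast]
      have e3 : τ₀ β = β := by
        field_simp at e2
        exact e2
      have e4 := (kapR_eq_zero_iff hβ0 hfixβ).2 e3
      rw [h1] at e4
      have : Fact (1 < p) := ⟨hpp.one_lt⟩
      exact one_ne_zero e4
  have hzp : k ⟨τ₀, hτ₀⟩ ^ (j - (P.ℓ : ℤ)) = 1 := by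
    rw [zpow_sub, hjk, hconj, zpow_natCast, mul_inv_cancel]
  have hdj : ((p ^ (m + 1) : ℕ) : ℤ) ∣ j - (P.ℓ : ℤ) := by
    rw [← hord]
    exact orderOf_dvd_iff_zpow_eq_one.2 hzp
  obtain ⟨c, hc⟩ := hdj
  have hrj : r τ₀ ^ (j - (P.ℓ : ℤ)) = 1 := by
    rw [hc, pow_succ, Nat.cast_mul, mul_assoc, zpow_mul, zpow_natCast, hm, one_zpow]
  have hfin : r τ₀ ^ j = r τ₀ ^ P.ℓ := by
    have : j = (j - (P.ℓ : ℤ)) + (P.ℓ : ℤ) := by ring
    rw [this, zpow_add, hrj, one_mul, zpow_natCast]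
  rw [← hfin, hjr, map_mul, map_mul, map_inv]

/-! ### Exports -/

theorem exists_level_le_ker {B : Type*} [Group B] (r : GQ →* B)
    (h : ∃ K : IntermediateField ℚ Qbar, FiniteDimensional ℚ K ∧ K.fixingSubgroup ≤ r.ker) :
    ∃ U ∈ Lall, U ≤ r.ker := by
  obtain ⟨K, hK, hle⟩ := h
  obtain ⟨F', hKF, hfd, hn⟩ := exists_normal_level_all K hK
  exact ⟨F'.fixingSubgroup, ⟨hn, F', hfd, rfl⟩,
    (IntermediateField.fixingSubgroup_antitone hKF).trans hle⟩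

/-- **THE TAME RELATION** (export).  `σ` does not depend on `r`. -/
theorem exists_tame_gen (p ℓ : ℕ) [Fact p.Prime] (hℓ : ℓ.Prime) (hℓp : ℓ ≠ p)
    (A : ValuationSubring Qbar) (hA : A.LiesOverPrime ℓ) :
    ∃ σ ∈ A.inertiaSubgroupIn ℚ, ∀ {B : Type*} [Group B] (r : GQ →* B),
      (∃ K : IntermediateField ℚ Qbar, FiniteDimensional ℚ K ∧ K.fixingSubgroup ≤ r.ker) →
      (∀ τ ∈ A.inertiaSubgroupIn ℚ, ∃ k : ℕ, r τ ^ p ^ k = 1) →
      (∀ τ ∈ A.inertiaSubgroupIn ℚ, ∃ j : ℕ, r τ = r σ ^ j) ∧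
      (∀ φ : GQ, A.IsFrobeniusAt φ ℓ → r φ * r σ * (r φ)⁻¹ = r σ ^ ℓ) := by
  have hp : p.Prime := Fact.out
  set P : Plc := ⟨A, ℓ, hℓ, hA⟩ with hP
  obtain ⟨β, hβ⟩ := IsAlgClosed.exists_pow_nat_eq (P.ℓ : Qb) hp.pos
  obtain ⟨τ₀, hτ₀, h1⟩ := exists_kapR_eq_one P ⊥ hℓp (isUnif_ell P) hβ
  rw [li_bot] at hτ₀
  refine ⟨τ₀, hτ₀, fun {B} _ r hsm hpg => ⟨fun τ hτ => ?_, fun φ hφ => ?_⟩⟩
  · obtain ⟨U, hU, hUr⟩ := exists_level_le_ker r hsm
    have hmem := cyc P hℓp hβ hτ₀ h1 (r.comp P.ine.subtype)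
      ⟨U, hU, fun u hu => MonoidHom.mem_ker.1 (hUr hu)⟩ (fun t => hpg t t.2) ⟨τ, hτ⟩
    obtain ⟨k, hk⟩ := hpg τ₀ hτ₀
    have hfo : IsOfFinOrder (r τ₀) := isOfFinOrder_iff_pow_eq_one.2 ⟨p ^ k, pow_pos hp.pos k, hk⟩
    obtain ⟨j, hj⟩ := (hfo.mem_powers_iff_mem_zpowers).2 hmem
    exact ⟨j, hj.symm⟩
  · exact rel P hℓp hβ hτ₀ h1 r (exists_level_le_ker r hsm) hpg hφ

/-- the same for an action of `G_ℚ` on a type `V` (e.g. the `θ`-part of `KV (FN N) (p ^ k)`). -/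
theorem exists_tame_gen_smul (p ℓ : ℕ) [Fact p.Prime] (hℓ : ℓ.Prime) (hℓp : ℓ ≠ p)
    (A : ValuationSubring Qbar) (hA : A.LiesOverPrime ℓ) :
    ∃ σ ∈ A.inertiaSubgroupIn ℚ, ∀ {V : Type*} [MulAction GQ V],
      (∃ K : IntermediateField ℚ Qbar, FiniteDimensional ℚ K ∧
        ∀ g ∈ K.fixingSubgroup, ∀ x : V, g • x = x) →
      (∀ τ ∈ A.inertiaSubgroupIn ℚ, ∃ k : ℕ, ∀ x : V, τ ^ p ^ k • x = x) →
      (∀ τ ∈ A.inertiaSubgroupIn ℚ, ∃ j : ℕ, ∀ x : V, τ • x = σ ^ j • x) ∧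
      (∀ φ : GQ, A.IsFrobeniusAt φ ℓ → ∀ x : V, (φ * σ * φ⁻¹) • x = σ ^ ℓ • x) := by
  obtain ⟨σ, hσ, h⟩ := exists_tame_gen p ℓ hℓ hℓp A hA
  refine ⟨σ, hσ, fun {V} _ hsm hpg => ?_⟩
  obtain ⟨K, hK, hfix⟩ := hsm
  obtain ⟨h1, h2⟩ := h (MulAction.toPermHom GQ V)
    ⟨K, hK, fun g hg => MonoidHom.mem_ker.2 (Equiv.ext fun x => hfix g hg x)⟩
    (fun τ hτ => by
      obtain ⟨k, hk⟩ := hpg τ hτ
      refine ⟨k, Equiv.ext fun x => ?_⟩
      rw [← map_pow]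
      exact hk x)
  refine ⟨fun τ hτ => ?_, fun φ hφ x => ?_⟩
  · obtain ⟨j, hj⟩ := h1 τ hτ
    refine ⟨j, fun x => ?_⟩
    rw [← map_pow] at hj
    exact congrArg (fun e : Equiv.Perm V => e x) hj
  · have h3 := h2 φ hφ
    rw [← map_inv, ← map_mul, ← map_mul, ← map_pow] at h3
    exact congrArg (fun e : Equiv.Perm V => e x) h3

end Fermat.Agent.S43.TameRel
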