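import Fermat.Agent.S43.CountFin

/-!
# S43 / CountDual : the KERNEL form of the counting lemma of route TWX (variant TWX0)

`count_false_ker` : same as `count_false`, but
* `n L = (a, b, c, x) L` is replaced by `L[(a, b, c, x)] ⊆ L[y]`,
* `dim L / y L ≤ d` is replaced by `dim L[y] ≤ d`,
* the exponents `Q i` with `y i ^ Q i = 0` may differ (`P ≤ Q i`).
It is deduced from `count_false` applied to the `k`-dual of `L[y ^ P]` with the transposed action.
-/

set_option autoImplicit false

namespace Fermat.Agent.S43.CountAbs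

open Module

section Dual

variable {k A L : Type*} [Field k] [CommRing A] [Algebra k A] [AddCommGroup L] [Module k L]
  [Module A L] [IsScalarTower k A L]

/-- the transposed action of `A` on the `k`-dual. -/
@[reducible] noncomputable def dualModule : Module A (Module.Dual k L) where
  smul a f := f.comp (Algebra.lsmul k k L a)
  one_smul f := by
    ext l
    show f ((1 : A) • l) = f l
    rw [one_smul]
  mul_smul a b f := by
    ext l
    show f ((a * b) • l) = f (b • a • l)
    rw [mul_comm, mul_smul]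
  smul_zero a := by
    ext l
    rfl
  smul_add a f g := by
    ext l
    rfl
  add_smul a b f := by
    ext l
    show f ((a + b) • l) = f (a • l) + f (b • l)
    rw [add_smul, map_add]
  zero_smul f := by
    ext l
    show f ((0 : A) • l) = 0
    rw [zero_smul, map_zero]

attribute [local instance 10] dualModule

theorem dual_smul_apply (a : A) (f : Module.Dual k L) (l : L) : (a • f) l = f (a • l) := rfl

theorem dual_isScalarTower : IsScalarTower k A (Module.Dual k L) :=
  ⟨fun c a f => by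
    ext l
    show f ((c • a) • l) = c • f (a • l)
    rw [smul_assoc, map_smul]⟩

attribute [local instance] dual_isScalarTower

/-- a functional vanishing on `L[z]` lies in `∑ z_j L^*`. -/
theorem mem_iSup_mulTop_dual {ι : Type*} [Finite ι] (z : ι → A) (g : Module.Dual k L)
    (hg : ∀ l : L, (∀ j, z j • l = 0) → g l = 0) :
    g ∈ ⨆ j, mulTop (Module.Dual k L) (z j) := by
  classical
  cases nonempty_fintype ι
  let Z : L →ₗ[k] (ι → L) := LinearMap.pi fun j => Algebra.lsmul k k L (z j)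
  have hmem : g ∈ (LinearMap.ker Z).dualAnnihilator := by
    rw [Submodule.mem_dualAnnihilator]
    intro l hl
    rw [LinearMap.mem_ker] at hl
    exact hg l fun j => congrFun hl j
  rw [← LinearMap.range_dualMap_eq_dualAnnihilator_ker] at hmem
  obtain ⟨G, hG⟩ := hmem
  have hsum : g = ∑ j, z j • (G.comp (LinearMap.single k (fun _ => L) j)) := by
    ext l
    rw [← hG, LinearMap.dualMap_apply, LinearMap.sum_apply]
    have h1 : Z l = ∑ j, Pi.single j (z j • l) := by
      rw [Finset.univ_sum_single]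
      rfl
    rw [h1, map_sum]
    rfl
  rw [hsum]
  exact Submodule.sum_mem _ fun j _ => Submodule.mem_iSup_of_mem j (smul_mem_mulTop _ _)

variable [FiniteDimensional k L]

/-- `dim L^* / y L^* ≤ dim L[y]`. -/
theorem cd_dual_le {ι : Type*} [Finite ι] (y : ι → A) (d : ℕ)
    (hB : ∀ S : Submodule k L, (∀ l ∈ S, ∀ i, y i • l = 0) → finrank k S ≤ d) :
    cd k (⨆ i, mulTop (Module.Dual k L) (y i)) ≤ d := by
  let K : Submodule k L := ⨅ i, LinearMap.ker (Algebra.lsmul k k L (y i))
  have hK : ∀ l, l ∈ K ↔ ∀ i, y i • l = 0 := by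
    intro l
    simp only [K, Submodule.mem_iInf, LinearMap.mem_ker, Algebra.lsmul_coe]
  have h1 : finrank k K ≤ d := hB K fun l hl => (hK l).1 hl
  have h2 : K.dualAnnihilator ≤ (⨆ i, mulTop (Module.Dual k L) (y i)).restrictScalars k := by
    intro g hg
    rw [Submodule.mem_dualAnnihilator] at hg
    exact mem_iSup_mulTop_dual y g fun l hl => hg l ((hK l).2 hl)
  have h3 := Submodule.finrank_mono h2
  have h4 := cd_add (k := k) (⨆ i, mulTop (Module.Dual k L) (y i))
  have h5 := Subspace.finrank_add_finrank_dualAnnihilator_eq K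
  have h6 : finrank k (Module.Dual k L) = finrank k L := Subspace.dual_finrank_eq
  omega

/-- **The contradiction, kernel form, equal exponents.** -/
theorem count_false_ker0 {t g r : ℕ} (P d : ℕ) (a b c : Fin t → A) (x : Fin g → A) (y : Fin r → A)
    (hrel : ∀ j (l : L), (a j ^ 2 + b j * c j) • l = 0)
    (hyP : ∀ i (l : L), y i ^ P • l = 0)
    (hnb : ∀ j, ∃ n, ∀ l : L, b j ^ n • l = 0)
    (hnc : ∀ j, ∃ n, ∀ l : L, c j ^ n • l = 0)
    (hnx : ∀ i, ∃ n, ∀ l : L, x i ^ n • l = 0)
    (hy : ∀ l : L, (∀ j, a j • l = 0) → (∀ j, b j • l = 0) → (∀ j, c j • l = 0) →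
      (∀ i, x i • l = 0) → ∀ i, y i • l = 0)
    (hA : ∃ v : L, (∏ i, y i ^ (P - 1)) • v ≠ 0)
    (hB : ∀ S : Submodule k L, (∀ l ∈ S, ∀ i, y i • l = 0) → finrank k S ≤ d)
    (hdim : 2 * t + g < r)
    (hP : d * 2 ^ t * (d * (r + 1)) ^ (2 * t + g) < P) : False := by
  have hz : ∀ z : A, (∀ l : L, z • l = 0) → ∀ f : Module.Dual k L, z • f = 0 := by
    intro z hz f
    ext l
    rw [dual_smul_apply, hz, map_zero]
    rfl
  refine count_false (k := k) (L := Module.Dual k L) P d a b c x y (fun j => hz _ (hrel j))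
    (fun i => hz _ (hyP i)) (fun j => (hnb j).imp fun n hn => hz _ hn)
    (fun j => (hnc j).imp fun n hn => hz _ hn) (fun j => (hnx j).imp fun n hn => hz _ hn)
    ?_ ?_ (cd_dual_le y d hB) hdim hP
  · rintro i _ ⟨f, rfl⟩
    let z : ((Fin t ⊕ Fin t) ⊕ Fin g) ⊕ Fin t → A := Sum.elim (Sum.elim (Sum.elim b c) x) a
    have h1 : y i • f ∈ ⨆ j, mulTop (Module.Dual k L) (z j) := by
      refine mem_iSup_mulTop_dual z _ fun l hl => ?_
      rw [dual_smul_apply, hy l (fun j => hl (Sum.inr j))
        (fun j => hl (Sum.inl (Sum.inl (Sum.inl j)))) (fun j => hl (Sum.inl (Sum.inl (Sum.inr j))))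
        (fun j => hl (Sum.inl (Sum.inr j))) i, map_zero]
    rw [iSup_sum, iSup_sum, iSup_sum] at h1
    exact h1
  · obtain ⟨v, hv⟩ := hA
    obtain ⟨f, hf⟩ : ∃ f : Module.Dual k L, f ((∏ i, y i ^ (P - 1)) • v) ≠ 0 := by
      by_contra hcon
      push Not at hcon
      exact hv ((Module.forall_dual_apply_eq_zero_iff k _).1 hcon)
    refine ⟨f, fun h0 => hf ?_⟩
    rw [← dual_smul_apply, h0]
    rfl

end Dual

section Ker

variable {k A L : Type*} [Field k] [CommRing A] [Algebra k A] [AddCommGroup L] [Module k L]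
  [Module A L] [IsScalarTower k A L] [FiniteDimensional k L]

/-- **The contradiction, kernel form.**  (`Q i` = order of tame inertia at the `i`-th Taylor-Wiles prime,
`P` = the common lower bound `p ^ n`.) -/
theorem count_false_ker {t g r : ℕ} (P d : ℕ) (Q : Fin r → ℕ) (hQ : ∀ i, P ≤ Q i)
    (a b c : Fin t → A) (x : Fin g → A) (y : Fin r → A)
    (hrel : ∀ j (l : L), (a j ^ 2 + b j * c j) • l = 0)
    (hyQ : ∀ i (l : L), y i ^ Q i • l = 0)
    (hnb : ∀ j, ∃ n, ∀ l : L, b j ^ n • l = 0)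
    (hnc : ∀ j, ∃ n, ∀ l : L, c j ^ n • l = 0)
    (hnx : ∀ i, ∃ n, ∀ l : L, x i ^ n • l = 0)
    (hy : ∀ l : L, (∀ j, a j • l = 0) → (∀ j, b j • l = 0) → (∀ j, c j • l = 0) →
      (∀ i, x i • l = 0) → ∀ i, y i • l = 0)
    (hA : ∃ v : L, (∏ i, y i ^ (Q i - 1)) • v ≠ 0)
    (hB : ∀ S : Submodule k L, (∀ l ∈ S, ∀ i, y i • l = 0) → finrank k S ≤ d)
    (hdim : 2 * t + g < r)
    (hP : d * 2 ^ t * (d * (r + 1)) ^ (2 * t + g) < P) : False := by
  have hP1 : 1 ≤ P := by omega
  let L' : Submodule A L := ⨅ i, LinearMap.ker (LinearMap.lsmul A L (y i ^ P))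
  have hL' : ∀ l, l ∈ L' ↔ ∀ i, y i ^ P • l = 0 := by
    intro l
    simp only [L', Submodule.mem_iInf, LinearMap.mem_ker, LinearMap.lsmul_apply]
  have hfd : FiniteDimensional k L' :=
    inferInstanceAs (FiniteDimensional k (L'.restrictScalars k))
  have hz : ∀ z : A, (∀ l : L, z • l = 0) → ∀ l : L', z • l = 0 :=
    fun z hz l => Subtype.ext (hz l)
  refine count_false_ker0 (k := k) (L := L') P d a b c x y (fun j => hz _ (hrel j))
    (fun i l => Subtype.ext ((hL' l).1 l.2 i)) (fun j => (hnb j).imp fun n hn => hz _ hn)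
    (fun j => (hnc j).imp fun n hn => hz _ hn) (fun j => (hnx j).imp fun n hn => hz _ hn)
    ?_ ?_ ?_ hdim hP
  · intro l h1 h2 h3 h4 i
    exact Subtype.ext (hy l (fun j => congrArg Subtype.val (h1 j))
      (fun j => congrArg Subtype.val (h2 j)) (fun j => congrArg Subtype.val (h3 j))
      (fun j => congrArg Subtype.val (h4 j)) i)
  · obtain ⟨v, hv⟩ := hA
    have hmem : (∏ i, y i ^ (Q i - P)) • v ∈ L' := by
      rw [hL']
      intro i
      rw [smul_smul, ← Finset.mul_prod_erase Finset.univ _ (Finset.mem_univ i), ← mul_assoc,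
        ← pow_add, Nat.add_sub_cancel' (hQ i), mul_smul, hyQ]
    refine ⟨⟨_, hmem⟩, fun h0 => hv ?_⟩
    have h1 := congrArg Subtype.val h0
    rw [Submodule.coe_smul, Submodule.coe_zero, smul_smul, ← Finset.prod_mul_distrib] at h1
    rw [← h1]
    congr 1
    refine Finset.prod_congr rfl fun i _ => ?_
    rw [← pow_add]
    congr 1
    have := hQ i
    omega
  · intro S hS
    have h1 : finrank k (S.map (L'.subtype.restrictScalars k)) = finrank k S :=
      LinearEquiv.finrank_eq (Submodule.equivMapOfInjective _ (Subtype.val_injective) S).symm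
    rw [← h1]
    refine hB _ ?_
    rintro _ ⟨l, hl, rfl⟩ i
    exact congrArg Subtype.val (hS l hl i)

/-- the same with a cardinality bound for `L[y]`. -/
theorem count_false_ker_card [Finite k] {t g r : ℕ} (P d : ℕ) (Q : Fin r → ℕ) (hQ : ∀ i, P ≤ Q i)
    (a b c : Fin t → A) (x : Fin g → A) (y : Fin r → A)
    (hrel : ∀ j (l : L), (a j ^ 2 + b j * c j) • l = 0)
    (hyQ : ∀ i (l : L), y i ^ Q i • l = 0)
    (hnb : ∀ j, ∃ n, ∀ l : L, b j ^ n • l = 0)
    (hnc : ∀ j, ∃ n, ∀ l : L, c j ^ n • l = 0)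
    (hnx : ∀ i, ∃ n, ∀ l : L, x i ^ n • l = 0)
    (hy : ∀ l : L, (∀ j, a j • l = 0) → (∀ j, b j • l = 0) → (∀ j, c j • l = 0) →
      (∀ i, x i • l = 0) → ∀ i, y i • l = 0)
    (hA : ∃ v : L, (∏ i, y i ^ (Q i - 1)) • v ≠ 0)
    (hB : Nat.card {l : L // ∀ i, y i • l = 0} ≤ Nat.card k ^ d)
    (hdim : 2 * t + g < r)
    (hP : d * 2 ^ t * (d * (r + 1)) ^ (2 * t + g) < P) : False := by
  refine count_false_ker (k := k) P d Q hQ a b c x y hrel hyQ hnb hnc hnx hy hA ?_ hdim hP
  intro S hS
  have hfin : Finite L := Module.finite_of_finite k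
  have h1 : Nat.card S ≤ Nat.card {l : L // ∀ i, y i • l = 0} :=
    Nat.card_le_card_of_injective (fun l : S => (⟨l.1, hS l.1 l.2⟩ : {l : L // ∀ i, y i • l = 0}))
      (fun l l' h => Subtype.ext (Subtype.mk.inj h))
  rw [Module.natCard_eq_pow_finrank (K := k) (V := S)] at h1
  exact (Nat.pow_le_pow_iff_right Finite.one_lt_card).1 (h1.trans hB)

end Ker

end Fermat.Agent.S43.CountAbs
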