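import Mathlib

/-!
# S43 / CountAbs : the finite counting lemma of route TWX (report 408, step 4)

`A` a commutative `k`-algebra acting on a finite dimensional `k`-vector space `L`.
-/

set_option autoImplicit false

namespace Fermat.Agent.S43.CountAbs

open Module

variable {k A L : Type*} [Field k] [CommRing A] [Algebra k A] [AddCommGroup L] [Module k L]
  [Module A L] [IsScalarTower k A L] [FiniteDimensional k L]

/-- codimension of an `A`-submodule. -/
noncomputable def cd (k : Type*) {A L : Type*} [Field k] [CommRing A] [Algebra k A] [AddCommGroup L]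
    [Module k L] [Module A L] [IsScalarTower k A L] (N : Submodule A L) : ℕ :=
  finrank k (L ⧸ N.restrictScalars k)

theorem cd_add (N : Submodule A L) :
    cd k N + finrank k (N.restrictScalars k) = finrank k L :=
  Submodule.finrank_quotient_add_finrank _

theorem cd_bot : cd k (⊥ : Submodule A L) = finrank k L := by
  have h := cd_add (k := k) (⊥ : Submodule A L)
  have h0 : finrank k ((⊥ : Submodule A L).restrictScalars k) = 0 := by
    rw [Submodule.restrictScalars_bot]
    exact finrank_bot k L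
  omega

theorem cd_anti {N N' : Submodule A L} (h : N ≤ N') : cd k N' ≤ cd k N := by
  have h1 := cd_add (k := k) N
  have h2 := cd_add (k := k) N'
  have h3 : finrank k (N.restrictScalars k) ≤ finrank k (N'.restrictScalars k) :=
    Submodule.finrank_mono (fun x hx => h hx)
  omega

/-- the submodule `z L`. -/
def mulTop (L : Type*) {A : Type*} [CommRing A] [AddCommGroup L] [Module A L] (z : A) :
    Submodule A L :=
  LinearMap.range (LinearMap.lsmul A L z)

theorem mem_mulTop {z : A} {l : L} : l ∈ mulTop L z ↔ ∃ l', z • l' = l := Iff.rfl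

theorem smul_mem_mulTop (z : A) (l : L) : z • l ∈ mulTop L z := ⟨l, rfl⟩

/-- one step: `dim (N + z^m L) + dim (N + z L) ≤ dim L + dim N` if `z^(m+1) L ≤ N`. -/
theorem step_aux (N : Submodule A L) (z : A) (m : ℕ) (h : mulTop L (z ^ (m + 1)) ≤ N) :
    cd k N ≤ cd k (N ⊔ mulTop L (z ^ m)) + cd k (N ⊔ mulTop L z) := by
  set P : Submodule k L := (N ⊔ mulTop L z).restrictScalars k with hP
  obtain ⟨C, hC⟩ := Submodule.exists_isCompl P
  let f : L →ₗ[k] L := (LinearMap.lsmul A L (z ^ m)).restrictScalars k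
  have hf : ∀ l, f l = z ^ m • l := fun l => rfl
  have hle : (N ⊔ mulTop L (z ^ m)).restrictScalars k ≤ N.restrictScalars k ⊔ C.map f := by
    intro w hw
    rw [Submodule.restrictScalars_mem] at hw
    obtain ⟨n, hn, w', hw', rfl⟩ := Submodule.mem_sup.1 hw
    obtain ⟨l, rfl⟩ := hw'
    have hl : l ∈ P ⊔ C := by rw [hC.sup_eq_top]; exact Submodule.mem_top
    obtain ⟨u, hu, c, hc, rfl⟩ := Submodule.mem_sup.1 hl
    rw [hP, Submodule.restrictScalars_mem] at hu
    obtain ⟨n', hn', u', hu', rfl⟩ := Submodule.mem_sup.1 hu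
    obtain ⟨l', rfl⟩ := hu'
    have h1 : z ^ m • (LinearMap.lsmul A L z) l' ∈ N := by
      apply h
      refine ⟨l', ?_⟩
      simp only [LinearMap.lsmul_apply]
      rw [pow_succ, mul_smul]
    have h2 : z ^ m • n' ∈ N := N.smul_mem _ hn'
    have h3 : (LinearMap.lsmul A L (z ^ m)) (n' + (LinearMap.lsmul A L z) l' + c) =
        (z ^ m • n' + z ^ m • (LinearMap.lsmul A L z) l') + f c := by
      simp only [LinearMap.lsmul_apply, smul_add, hf]
    rw [h3, ← add_assoc]
    refine Submodule.add_mem_sup ?_ (Submodule.mem_map_of_mem hc)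
    rw [Submodule.restrictScalars_mem]
    exact N.add_mem hn (N.add_mem h2 h1)
  have h1 := Submodule.finrank_mono hle
  have h2 := Submodule.finrank_add_le_finrank_add_finrank (N.restrictScalars k) (C.map f)
  have h3 : finrank k (C.map f) ≤ finrank k C := Submodule.finrank_map_le f C
  have h4 := Submodule.finrank_add_eq_of_isCompl hC
  have e1 := cd_add (k := k) N
  have e2 := cd_add (k := k) (N ⊔ mulTop L (z ^ m))
  have e3 := cd_add (k := k) (N ⊔ mulTop L z)
  rw [← hP] at e3
  omega

/-- **Lemma Q.** -/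
theorem cd_le_mul (z : A) (m : ℕ) : ∀ N : Submodule A L, mulTop L (z ^ m) ≤ N →
    cd k N ≤ m * cd k (N ⊔ mulTop L z) := by
  induction m with
  | zero =>
    intro N h
    have hN : N = ⊤ := by
      rw [eq_top_iff]
      intro l _
      exact h ⟨l, by simp⟩
    subst hN
    have h1 := cd_add (k := k) (⊤ : Submodule A L)
    have h2 : finrank k ((⊤ : Submodule A L).restrictScalars k) = finrank k L := by
      rw [Submodule.restrictScalars_top]
      exact finrank_top k L
    omega
  | succ m ih =>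
    intro N h
    have h1 := step_aux (k := k) N z m h
    have h2 := ih (N ⊔ mulTop L (z ^ m)) le_sup_right
    have h3 : cd k (N ⊔ mulTop L (z ^ m) ⊔ mulTop L z) ≤ cd k (N ⊔ mulTop L z) :=
      cd_anti (sup_le_sup_right le_sup_left _)
    calc cd k N ≤ cd k (N ⊔ mulTop L (z ^ m)) + cd k (N ⊔ mulTop L z) := h1
      _ ≤ m * cd k (N ⊔ mulTop L (z ^ m) ⊔ mulTop L z) + cd k (N ⊔ mulTop L z) := by omega
      _ ≤ m * cd k (N ⊔ mulTop L z) + cd k (N ⊔ mulTop L z) := by
          have := Nat.mul_le_mul_left m h3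
          omega
      _ = (m + 1) * cd k (N ⊔ mulTop L z) := by ring

/-- Lemma Q for a finite family. -/
theorem cd_le_pow_mul {ι : Type*} (z : ι → A) (m : ℕ) (N : Submodule A L)
    (h : ∀ i, mulTop L (z i ^ m) ≤ N) (s : Finset ι) :
    cd k N ≤ m ^ s.card * cd k (N ⊔ ⨆ i ∈ s, mulTop L (z i)) := by
  classical
  induction s using Finset.induction_on with
  | empty => simp
  | insert i s hi ih =>
    have h1 := cd_le_mul (k := k) (z i) m (N ⊔ ⨆ j ∈ s, mulTop L (z j)) ((h i).trans le_sup_left)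
    have h2 : N ⊔ (⨆ j ∈ s, mulTop L (z j)) ⊔ mulTop L (z i) =
        N ⊔ ⨆ j ∈ insert i s, mulTop L (z j) := by
      rw [Finset.iSup_insert, sup_assoc, sup_comm (mulTop L (z i))]
    rw [h2] at h1
    rw [Finset.card_insert_of_notMem hi, pow_succ, mul_assoc]
    exact ih.trans (Nat.mul_le_mul_left _ h1)

/-- powers of the ideal generated by elements `y i` with `y i ^ P = 0` on `L`. -/
theorem span_pow_le_ann {ι : Type*} (y : ι → A) (P : ℕ) (hy : ∀ i (l : L), y i ^ P • l = 0)
    (s : Finset ι) :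
    (Ideal.span (y '' (s : Set ι))) ^ (s.card * P + 1) ≤ Module.annihilator A L := by
  classical
  induction s using Finset.induction_on with
  | empty => simp
  | insert i s hi ih =>
    have h1 : Ideal.span (y '' ((insert i s : Finset ι) : Set ι)) =
        Ideal.span (y '' (s : Set ι)) ⊔ Ideal.span {y i} := by
      rw [Finset.coe_insert, Set.image_insert_eq, Ideal.span_insert, sup_comm]
    rw [h1, Finset.card_insert_of_notMem hi]
    have h2 : (s.card + 1) * P + 1 = (s.card * P + 1) + P := by ring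
    rw [h2]
    refine Ideal.sup_pow_add_le_pow_sup_pow.trans (sup_le ih ?_)
    rw [Ideal.span_singleton_pow, Ideal.span_singleton_le_iff_mem, Module.mem_annihilator]
    exact hy i

/-- a nilpotent element kills `L / N` after `cd N` steps. -/
theorem mulTop_pow_le_of_cd_le (N : Submodule A L) (z : A) (hz : ∃ n, ∀ l : L, z ^ n • l = 0)
    {d : ℕ} (hd : cd k N ≤ d) : mulTop L (z ^ d) ≤ N := by
  obtain ⟨n, hn⟩ := hz
  let f : (L ⧸ N) →ₗ[k] (L ⧸ N) := (LinearMap.lsmul A (L ⧸ N) z).restrictScalars k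
  have hf : ∀ (m : ℕ) (l : L), (f ^ m) (Submodule.Quotient.mk l) =
      Submodule.Quotient.mk (p := N) (z ^ m • l) := by
    intro m
    induction m with
    | zero => intro l; simp
    | succ m ih =>
      intro l
      rw [pow_succ', Module.End.mul_apply, ih]
      show z • (Submodule.Quotient.mk (p := N) (z ^ m • l)) = _
      rw [← Submodule.Quotient.mk_smul, smul_smul, ← pow_succ']
  have hfr : finrank k (L ⧸ N) = cd k N :=
    (Submodule.Quotient.restrictScalarsEquiv k N).finrank_eq.symm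
  have hfin : FiniteDimensional k (L ⧸ N) :=
    (Submodule.Quotient.restrictScalarsEquiv k N).finiteDimensional
  have hker := Module.End.ker_pow_le_ker_pow_finrank f n
  rintro _ ⟨l, rfl⟩
  have h1 : (Submodule.Quotient.mk (p := N) l) ∈ LinearMap.ker (f ^ n) := by
    rw [LinearMap.mem_ker, hf, hn, Submodule.Quotient.mk_zero]
  have h2 := hker h1
  rw [LinearMap.mem_ker, hf, Submodule.Quotient.mk_eq_zero, hfr] at h2
  obtain ⟨e, rfl⟩ := Nat.exists_eq_add_of_le hd
  simp only [LinearMap.lsmul_apply]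
  rw [add_comm, pow_add, mul_smul]
  exact N.smul_mem _ h2

theorem mulTop_pow_mul_le (I : Ideal A) (z : A) (d : ℕ)
    (h : mulTop L (z ^ d) ≤ (I • ⊤ : Submodule A L)) (m : ℕ) :
    mulTop L (z ^ (d * m)) ≤ (I ^ m • ⊤ : Submodule A L) := by
  induction m with
  | zero => simp
  | succ m ih =>
    have key : ∀ w ∈ (I ^ m • ⊤ : Submodule A L), z ^ d • w ∈ (I ^ (m + 1) • ⊤ : Submodule A L) := by
      intro w hw
      refine Submodule.smul_induction_on hw ?_ ?_
      · intro i hi l' _
        rw [smul_comm, pow_succ, Submodule.mul_smul]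
        exact Submodule.smul_mem_smul hi (h ⟨l', rfl⟩)
      · intro u v hu hv
        rw [smul_add]
        exact add_mem hu hv
    rintro _ ⟨l, rfl⟩
    have h1 : z ^ (d * m) • l ∈ (I ^ m • ⊤ : Submodule A L) := ih ⟨l, rfl⟩
    have h2 := key _ h1
    have h3 : (LinearMap.lsmul A L (z ^ (d * (m + 1)))) l = z ^ d • z ^ (d * m) • l := by
      rw [LinearMap.lsmul_apply, smul_smul, ← pow_add]
      congr 2
      ring
    rw [h3]
    exact h2

/-- the nilpotency bound. -/
theorem pow_smul_eq_zero {r : ℕ} (y : Fin r → A) (P d : ℕ) (hyP : ∀ i (l : L), y i ^ P • l = 0)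
    (hB : cd k (⨆ i, mulTop L (y i)) ≤ d) (z : A) (hz : ∃ n, ∀ l : L, z ^ n • l = 0) (l : L) :
    z ^ (d * (r * P + 1)) • l = 0 := by
  set I : Ideal A := Ideal.span (Set.range y) with hI
  have h1 : mulTop L (z ^ d) ≤ (I • ⊤ : Submodule A L) := by
    refine (mulTop_pow_le_of_cd_le (k := k) _ z hz hB).trans (iSup_le fun i => ?_)
    rintro _ ⟨l', rfl⟩
    exact Submodule.smul_mem_smul (Ideal.subset_span ⟨i, rfl⟩) Submodule.mem_top
  have h2 := mulTop_pow_mul_le I z d h1 (r * P + 1)
  have h3 := span_pow_le_ann (L := L) y P hyP Finset.univ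
  rw [Finset.coe_univ, Set.image_univ, Finset.card_univ, Fintype.card_fin, ← hI] at h3
  have h4 : (I ^ (r * P + 1) • ⊤ : Submodule A L) ≤ ⊥ := by
    rw [Submodule.smul_le]
    intro i hi l' _
    rw [Submodule.mem_bot]
    exact Module.mem_annihilator.1 (h3 hi) l'
  have h5 := h4 (h2 ⟨l, rfl⟩)
  simpa using h5

/-- the lower bound `P ^ r ≤ dim L`. -/
theorem pow_le_finrank {r : ℕ} (y : Fin r → A) (P : ℕ) (hyP : ∀ i (l : L), y i ^ P • l = 0)
    (hA : ∃ v : L, (∏ i, y i ^ (P - 1)) • v ≠ 0) : P ^ r ≤ finrank k L := by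
  classical
  obtain ⟨v, hv⟩ := hA
  let w : (Fin r → Fin P) → L := fun e => (∏ i, y i ^ (e i : ℕ)) • v
  have hli : LinearIndependent k w := by
    rw [Fintype.linearIndependent_iff]
    intro g hg
    by_contra hne
    push Not at hne
    have hne' : (Finset.univ.filter fun e => g e ≠ 0).Nonempty := by
      obtain ⟨e, he⟩ := hne
      exact ⟨e, by simp [he]⟩
    obtain ⟨e0, he0, hmin⟩ := Finset.exists_min_image _ (fun e : Fin r → Fin P => ∑ i, (e i : ℕ)) hne'
    rw [Finset.mem_filter] at he0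
    have hterm : ∀ e : Fin r → Fin P, e ≠ e0 →
        (∏ i, y i ^ (P - 1 - (e0 i : ℕ))) • (g e • w e) = 0 := by
      intro e hee
      by_cases hge : g e = 0
      · rw [hge, zero_smul, smul_zero]
      · have hle := hmin e (by simp [hge])
        have hex : ∃ i, (e0 i : ℕ) < (e i : ℕ) := by
          by_contra hcon
          push Not at hcon
          have hsum : ∑ i, (e i : ℕ) = ∑ i, (e0 i : ℕ) :=
            le_antisymm (Finset.sum_le_sum fun i _ => hcon i) hle
          apply hee
          funext i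
          have := (Finset.sum_eq_sum_iff_of_le (fun i _ => hcon i)).1 hsum i (Finset.mem_univ i)
          exact Fin.ext this
        obtain ⟨i, hi⟩ := hex
        rw [smul_comm]
        have h0 : (∏ i, y i ^ (P - 1 - (e0 i : ℕ))) • w e = 0 := by
          show (∏ i, y i ^ (P - 1 - (e0 i : ℕ))) • ((∏ i, y i ^ (e i : ℕ)) • v) = 0
          rw [smul_smul, ← Finset.prod_mul_distrib,
            ← Finset.mul_prod_erase Finset.univ _ (Finset.mem_univ i), ← pow_add]
          have hP : P ≤ P - 1 - (e0 i : ℕ) + (e i : ℕ) := by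
            have := (e i).2
            have := (e0 i).2
            omega
          obtain ⟨c, hc⟩ := Nat.exists_eq_add_of_le hP
          rw [hc, pow_add, mul_assoc, mul_smul, hyP]
        rw [h0, smul_zero]
    have h1 : (∏ i, y i ^ (P - 1 - (e0 i : ℕ))) • (∑ e, g e • w e) = 0 := by rw [hg, smul_zero]
    rw [Finset.smul_sum, Finset.sum_eq_single e0 (fun e _ he => hterm e he)
      (fun h => absurd (Finset.mem_univ e0) h), smul_comm] at h1
    have h2 : (∏ i, y i ^ (P - 1 - (e0 i : ℕ))) • w e0 = (∏ i, y i ^ (P - 1)) • v := by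
      show (∏ i, y i ^ (P - 1 - (e0 i : ℕ))) • ((∏ i, y i ^ (e0 i : ℕ)) • v) = _
      rw [smul_smul, ← Finset.prod_mul_distrib]
      congr 1
      refine Finset.prod_congr rfl fun i _ => ?_
      rw [← pow_add]
      congr 1
      have := (e0 i).2
      omega
    rw [h2] at h1
    rcases smul_eq_zero.1 h1 with h3 | h3
    · exact he0.2 h3
    · exact hv h3
  have := hli.fintype_card_le_finrank
  simpa using this

/-- **The counting lemma** (report 408, step 4). -/
theorem count_main {t g r : ℕ} (P d : ℕ) (a b c : Fin t → A) (x : Fin g → A) (y : Fin r → A)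
    (hrel : ∀ j (l : L), (a j ^ 2 + b j * c j) • l = 0)
    (hyP : ∀ i (l : L), y i ^ P • l = 0)
    (hnb : ∀ j, ∃ n, ∀ l : L, b j ^ n • l = 0)
    (hnc : ∀ j, ∃ n, ∀ l : L, c j ^ n • l = 0)
    (hnx : ∀ i, ∃ n, ∀ l : L, x i ^ n • l = 0)
    (hy : ∀ i, mulTop L (y i) ≤ (⨆ j, mulTop L (b j)) ⊔ (⨆ j, mulTop L (c j)) ⊔
      (⨆ i, mulTop L (x i)) ⊔ (⨆ j, mulTop L (a j)))
    (hA : ∃ v : L, (∏ i, y i ^ (P - 1)) • v ≠ 0)
    (hB : cd k (⨆ i, mulTop L (y i)) ≤ d) :
    P ^ r ≤ d * 2 ^ t * (d * (r * P + 1)) ^ (2 * t + g) := by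
  set m := d * (r * P + 1) with hm
  have hlow := pow_le_finrank (k := k) y P hyP hA
  have hz : ∀ z : A, (∃ n, ∀ l : L, z ^ n • l = 0) → ∀ N : Submodule A L, mulTop L (z ^ m) ≤ N := by
    intro z hz N
    rintro _ ⟨l, rfl⟩
    simp only [LinearMap.lsmul_apply]
    rw [pow_smul_eq_zero (k := k) y P d hyP hB z hz l]
    exact N.zero_mem
  have s1 := cd_le_pow_mul (k := k) b m (⊥ : Submodule A L) (fun j => hz _ (hnb j) _) Finset.univ
  have s2 := cd_le_pow_mul (k := k) c m (⊥ ⊔ ⨆ j ∈ Finset.univ, mulTop L (b j))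
    (fun j => hz _ (hnc j) _) Finset.univ
  have s3 := cd_le_pow_mul (k := k) x m
    (⊥ ⊔ (⨆ j ∈ Finset.univ, mulTop L (b j)) ⊔ ⨆ j ∈ Finset.univ, mulTop L (c j))
    (fun j => hz _ (hnx j) _) Finset.univ
  have s4 := cd_le_pow_mul (k := k) a 2
    (⊥ ⊔ (⨆ j ∈ Finset.univ, mulTop L (b j)) ⊔ (⨆ j ∈ Finset.univ, mulTop L (c j)) ⊔
      ⨆ i ∈ Finset.univ, mulTop L (x i))
    (fun j => by
      rintro _ ⟨l, rfl⟩
      simp only [LinearMap.lsmul_apply]
      have h1 := hrel j l
      rw [add_smul, add_eq_zero_iff_eq_neg] at h1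
      rw [h1, mul_smul]
      refine Submodule.neg_mem _ ?_
      refine Submodule.mem_sup_left (Submodule.mem_sup_left (Submodule.mem_sup_right ?_))
      exact Submodule.mem_iSup_of_mem j (Submodule.mem_iSup_of_mem (Finset.mem_univ j)
        (smul_mem_mulTop _ _))) Finset.univ
  simp only [Finset.mem_univ, iSup_pos, bot_sup_eq, Finset.card_univ, Fintype.card_fin] at s1 s2 s3 s4
  have s5 : cd k ((⨆ j, mulTop L (b j)) ⊔ (⨆ j, mulTop L (c j)) ⊔
      (⨆ i, mulTop L (x i)) ⊔ (⨆ j, mulTop L (a j))) ≤ d :=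
    (cd_anti (iSup_le hy)).trans hB
  rw [cd_bot] at s1
  calc P ^ r ≤ finrank k L := hlow
    _ ≤ m ^ t * (m ^ t * (m ^ g * (2 ^ t * d))) := by
        refine s1.trans (Nat.mul_le_mul_left _ (s2.trans (Nat.mul_le_mul_left _
          (s3.trans (Nat.mul_le_mul_left _ (s4.trans (Nat.mul_le_mul_left _ s5)))))))
    _ = d * 2 ^ t * m ^ (2 * t + g) := by
        rw [two_mul, pow_add, pow_add]
        ring

end Fermat.Agent.S43.CountAbs
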