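import Fermat.Agent.S43.CountAbs

/-!
# S43 / CountFin : the numerical contradiction of route TWX (report 408, step 4, last line)
-/

set_option autoImplicit false

namespace Fermat.Agent.S43.CountAbs

open Module

/-- `d 2^t (d (r P + 1))^e < P^r` as soon as `e < r` and `P` is larger than a constant depending only on
`d, t, r, e`. -/
theorem count_arith {t r e d P : ℕ} (he : e < r)
    (hP : d * 2 ^ t * (d * (r + 1)) ^ e < P) :
    d * 2 ^ t * (d * (r * P + 1)) ^ e < P ^ r := by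
  have hP1 : 1 ≤ P := by omega
  have h1 : d * (r * P + 1) ≤ d * (r + 1) * P := by
    have : r * P + 1 ≤ (r + 1) * P := by nlinarith
    calc d * (r * P + 1) ≤ d * ((r + 1) * P) := Nat.mul_le_mul_left _ this
      _ = d * (r + 1) * P := by ring
  have h2 : (d * (r * P + 1)) ^ e ≤ (d * (r + 1)) ^ e * P ^ e := by
    rw [← mul_pow]
    exact Nat.pow_le_pow_left h1 e
  have hPe : 0 < P ^ e := pow_pos hP1 e
  calc d * 2 ^ t * (d * (r * P + 1)) ^ e ≤ d * 2 ^ t * ((d * (r + 1)) ^ e * P ^ e) :=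
        Nat.mul_le_mul_left _ h2
    _ = (d * 2 ^ t * (d * (r + 1)) ^ e) * P ^ e := by ring
    _ < P * P ^ e := Nat.mul_lt_mul_of_pos_right hP hPe
    _ = P ^ (e + 1) := by rw [pow_succ']
    _ ≤ P ^ r := Nat.pow_le_pow_right hP1 he

variable {k A L : Type*} [Field k] [CommRing A] [Algebra k A] [AddCommGroup L] [Module k L]
  [Module A L] [IsScalarTower k A L] [FiniteDimensional k L]

/-- **The contradiction**: the data of `count_main` cannot exist when `2 t + g < r` and `P` is large. -/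
theorem count_false {t g r : ℕ} (P d : ℕ) (a b c : Fin t → A) (x : Fin g → A) (y : Fin r → A)
    (hrel : ∀ j (l : L), (a j ^ 2 + b j * c j) • l = 0)
    (hyP : ∀ i (l : L), y i ^ P • l = 0)
    (hnb : ∀ j, ∃ n, ∀ l : L, b j ^ n • l = 0)
    (hnc : ∀ j, ∃ n, ∀ l : L, c j ^ n • l = 0)
    (hnx : ∀ i, ∃ n, ∀ l : L, x i ^ n • l = 0)
    (hy : ∀ i, mulTop L (y i) ≤ (⨆ j, mulTop L (b j)) ⊔ (⨆ j, mulTop L (c j)) ⊔
      (⨆ i, mulTop L (x i)) ⊔ (⨆ j, mulTop L (a j)))
    (hA : ∃ v : L, (∏ i, y i ^ (P - 1)) • v ≠ 0)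
    (hB : cd k (⨆ i, mulTop L (y i)) ≤ d)
    (hdim : 2 * t + g < r)
    (hP : d * 2 ^ t * (d * (r + 1)) ^ (2 * t + g) < P) : False := by
  have h1 := count_main (k := k) P d a b c x y hrel hyP hnb hnc hnx hy hA hB
  have h2 := count_arith (t := t) hdim hP
  omega

end Fermat.Agent.S43.CountAbs
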