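import Fermat.Agent.S43.Ram2Abs
import Fermat.Agent.S13.ExportNoRat
import Fermat.Agent.S13.FreyTorsion
import Fermat.Agent.Lib.Ell.CardRat
import Fermat.Agent.S36R.K0.BlockL

/-!
# S43 / RAM2 : the mod `p` representation of the Frey curve is ramified at `2`

The Frey curve has multiplicative reduction at `2` and `p ∤ v₂(Δ)`.  Elementary proof:
* if every nonzero `p`-torsion point had unit abscissa at a place `A ∣ 2`, reduction would embed `E[p]` in the
  smooth locus of the nodal cubic, which has cyclic `p`-torsion (`mem_zmultiples_of_isNodeX`); but `#E[p] = p²`;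
* so there is a `p`-torsion point `R` reducing to the node; then `v(X R)^p = v(a₄)^(2n)` (`S13.claimB`) with
  `v(a₄) < v(X R) < 1`; if inertia fixed `R`, `v(X R)` would be an integral power of `v(2)`, forcing `p ∣ v₂(a₄)`.
-/

set_option autoImplicit false

namespace Fermat.Agent.S43.Ram2

open Fermat.Agent.S13 Fermat.Agent.S05
open WeierstrassCurve WeierstrassCurve.Affine WeierstrassCurve.Affine.Point

section red

variable {K : Type*} [Field K] (A : ValuationSubring K)

/-- the residue map into an algebraically closed field. -/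
noncomputable def resBar : A →+* AlgebraicClosure (IsLocalRing.ResidueField A) :=
  (algebraMap (IsLocalRing.ResidueField A) (AlgebraicClosure (IsLocalRing.ResidueField A))).comp
    (IsLocalRing.residue A)

theorem resBar_eq_zero_iff (a : A) : resBar A a = 0 ↔ A.valuation (a : K) < 1 := by
  rw [resBar, RingHom.comp_apply, _root_.map_eq_zero,
    IsLocalRing.residue_eq_zero_iff, ValuationSubring.valuation_lt_one_iff]

variable {G : Type*} [AddCommGroup G] {X Y Z : G → K} {m b₂ : K}

/-- if all nonzero `p`-torsion points have unit abscissa, the `p`-torsion is cyclic. -/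
theorem cyclic_of_all_unit (h : IsXY2 X Y Z m b₂) (hm1 : A.valuation m < 1) (hm0 : m ≠ 0)
    (hb : A.valuation b₂ = 1) {p : ℕ} (hp : p.Prime) (hp2 : p ≠ 2)
    (hvp : A.valuation (p : K) = 1)
    (hunit : ∀ Q : G, Q ≠ 0 → p • Q = 0 → A.valuation (X Q) = 1)
    {P Q : G} (hP : P ≠ 0) (hpP : p • P = 0) (hQ : Q ≠ 0) (hpQ : p • Q = 0) :
    Q ∈ AddSubgroup.zmultiples P := by
  classical
  set T : AddSubgroup G := (nsmulAddMonoidHom (α := G) p).ker with hT
  have hmem : ∀ R : G, R ∈ T ↔ p • R = 0 := by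
    intro R
    rw [hT, AddMonoidHom.mem_ker, nsmulAddMonoidHom_apply]
  have hle : ∀ R : T, X (R : G) ∈ A := by
    intro R
    rw [← A.valuation_le_one_iff]
    by_cases hR : (R : G) = 0
    · rw [hR, h.X_zero, _root_.map_zero]; exact zero_le_one
    · exact (hunit _ hR ((hmem _).1 R.2)).le
  let xA : T → A := fun R => ⟨X (R : G), hle R⟩
  have hmA : m ∈ A := (A.valuation_le_one_iff _).1 hm1.le
  have hbA : b₂ ∈ A := (A.valuation_le_one_iff _).1 hb.le
  let mA : A := ⟨m, hmA⟩
  let bA : A := ⟨b₂, hbA⟩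
  have hm0' : resBar A mA = 0 := (resBar_eq_zero_iff A mA).2 hm1
  have c4 : ((4 : A) : K) = 4 := map_ofNat A.subtype 4
  have c2 : ((2 : A) : K) = 2 := map_ofNat A.subtype 2
  have hne0 : ∀ R : T, R ≠ 0 → (R : G) ≠ 0 := by
    intro R hR h0
    exact hR (Subtype.ext h0)
  have hXne : ∀ R S : T, resBar A (xA R) ≠ resBar A (xA S) → X (R : G) ≠ X (S : G) := by
    intro R S hRS hX
    apply hRS
    have : xA R = xA S := Subtype.ext hX
    rw [this]
  have hnode : IsNodeX (fun R : T => resBar A (xA R)) (resBar A bA) := by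
    refine ⟨?_, ?_, ?_, ?_, ?_, ?_, ?_⟩
    · have : xA 0 = 0 := Subtype.ext (by simpa [xA] using h.X_zero)
      change resBar A (xA 0) = 0
      rw [this, _root_.map_zero]
    · intro R hR h0
      have h1 := (resBar_eq_zero_iff A (xA R)).1 h0
      have h2 := hunit _ (hne0 R hR) ((hmem _).1 R.2)
      exact absurd h2 h1.ne
    · intro R
      have : xA (-R) = xA R := Subtype.ext (by simpa [xA] using h.X_neg (R : G))
      change resBar A (xA (-R)) = resBar A (xA R)
      rw [this]
    · intro R S hR hS hRS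
      have h1 : resBar A (xA S - xA R) = 0 := by
        rw [map_sub]
        exact sub_eq_zero.2 hRS.symm
      have h2 := (resBar_eq_zero_iff A _).1 h1
      have h3 : A.valuation (X (S : G) - X (R : G)) < 1 := by simpa [xA] using h2
      have h4 := X_eq_of_congr_unit h hm1 hm0 hb hp hp2 hvp (hne0 R hR) ((hmem _).1 R.2)
        (hne0 S hS) ((hmem _).1 S.2) (hunit _ (hne0 R hR) ((hmem _).1 R.2)) h3
      rcases (h.X_eq_iff (hne0 R hR) (hne0 S hS)).1 h4 with h5 | h5
      · exact Or.inl (Subtype.ext h5)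
      · exact Or.inr (Subtype.ext (by simpa using h5))
    · intro R hR hRR
      have hd := h.dbl (hne0 R hR) (by simpa using hne0 _ hRR)
      rw [h.Y_sq] at hd
      have hdA : xA (R + R) * (4 * xA R ^ 3 + bA * xA R ^ 2 + 4 * mA * xA R) =
          (xA R ^ 2 - mA) ^ 2 := Subtype.ext (by simpa [xA, mA, bA, c4] using hd)
      have := congrArg (resBar A) hdA
      simp only [map_mul, map_add, map_sub, map_pow, map_ofNat, hm0', mul_zero, zero_mul,
        add_zero, sub_zero] at this
      exact this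
    · intro R S hR hS hRS
      have hd := h.add_add_sub (hne0 R hR) (hne0 S hS) (hXne R S hRS)
      have hdA : (xA (R + S) + xA (R - S)) * (xA R - xA S) ^ 2 =
          2 * (xA R + xA S) * (mA + xA R * xA S) + bA * (xA R * xA S) :=
        Subtype.ext (by simpa [xA, mA, bA, c2] using hd)
      have := congrArg (resBar A) hdA
      simp only [map_mul, map_add, map_sub, map_pow, map_ofNat, hm0', zero_add] at this
      exact this
    · intro R S hR hS hRS
      have hd := h.add_mul_sub (hne0 R hR) (hne0 S hS) (hXne R S hRS)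
      have hdA : xA (R + S) * xA (R - S) * (xA R - xA S) ^ 2 = (xA R * xA S - mA) ^ 2 :=
        Subtype.ext (by simpa [xA, mA, bA] using hd)
      have := congrArg (resBar A) hdA
      simp only [map_mul, map_sub, map_pow, hm0', sub_zero] at this
      exact this
  have hb0 : resBar A bA ≠ 0 := by
    intro h0
    exact absurd hb ((resBar_eq_zero_iff A bA).1 h0).ne
  have hG : ∀ R : T, p • R = 0 := fun R => Subtype.ext (by simpa using (hmem _).1 R.2)
  have hPT : (⟨P, (hmem P).2 hpP⟩ : T) ≠ 0 := fun h0 => hP (congrArg Subtype.val h0)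
  have hQT : (⟨Q, (hmem Q).2 hpQ⟩ : T) ≠ 0 := fun h0 => hQ (congrArg Subtype.val h0)
  have hfin := mem_zmultiples_of_isNodeX hnode hb0 hp hp2 hG hPT hQT
  obtain ⟨n, hn⟩ := AddSubgroup.mem_zmultiples_iff.1 hfin
  refine AddSubgroup.mem_zmultiples_iff.2 ⟨n, ?_⟩
  have := congrArg Subtype.val hn
  simpa using this

end red

section node

variable {G : Type*} [AddCommGroup G] {K : Type*} [Field K]
  {Γ₀ : Type*} [LinearOrderedCommGroupWithZero Γ₀]

/-- a `p`-torsion point reducing to the node cannot have abscissa of "unramified" valuation when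
`p ∤ v(m)` (the node branch of `S13.no_rat_abstract`). -/
theorem node_contra {v : Valuation K Γ₀} {X Y Z : G → K} {m b₂ : K}
    (h : IsXY2 X Y Z m b₂) (hm1 : v m < 1) (hm0 : m ≠ 0) (hb : v b₂ = 1)
    {p : ℕ} (hp : p.Prime) (hp2 : p ≠ 2)
    (π : K) (hπ0 : π ≠ 0) (hπ : v π < 1)
    (hm : ∃ k : ℤ, v m = v π ^ k ∧ ¬ (p : ℤ) ∣ k)
    {P : G} (hP : P ≠ 0) (hpP : p • P = 0) (hlt : v (X P) < 1)
    (hval : ∃ j : ℤ, v (X P) = v π ^ j) : False := by
  have hN := node_gt h hm1 hm0 hb hp hp2 hP hpP hlt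
  obtain ⟨n, hn⟩ := claimB h hm1 hm0 hb hp hp2 hP hpP hlt
  obtain ⟨j, hj⟩ := hval
  obtain ⟨k, hk, hpk⟩ := hm
  have hπ0' : 0 < v π := zero_lt_iff.mpr ((Valuation.ne_zero_iff v).mpr hπ0)
  rw [hj, hk, ← zpow_natCast, ← zpow_mul, ← zpow_mul] at hn
  have hinj := zpow_right_injective₀ hπ0' hπ.ne hn
  have hpZ : Prime (p : ℤ) := Nat.prime_iff_prime_int.mp hp
  have hdvd : (p : ℤ) ∣ k * (2 * n) := ⟨j, by rw [← hinj]; ring⟩
  have hpn : (p : ℤ) ∣ n := by
    rcases hpZ.dvd_or_dvd hdvd with h1 | h1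
    · exact absurd h1 hpk
    · rcases hpZ.dvd_or_dvd h1 with h3 | h3
      · exfalso
        have h4 : p ∣ 2 := by exact_mod_cast h3
        exact hp2 ((Nat.prime_dvd_prime_iff_eq hp Nat.prime_two).mp h4)
      · exact h3
  obtain ⟨n', rfl⟩ := hpn
  have hp0 : (p : ℤ) ≠ 0 := by exact_mod_cast hp.ne_zero
  have hj' : j = k * (2 * n') := by
    apply mul_right_cancel₀ hp0
    rw [hinj]; ring
  have hxm : v (X P) = v m ^ (2 * n') := by rw [hj, hk, ← zpow_mul, hj']
  rw [hxm] at hN hlt
  exact not_between_zpow ((Valuation.ne_zero_iff v).mpr hm0) hm1 n' hN hlt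

end node

section frey

/-- `E[p]` is not cyclic. -/
theorem frey_exists_indep (P : FreyPackage) (R : (P.freyCurve⁄(AlgebraicClosure ℚ)).Point)
    (hR : P.p • R = 0) :
    ∃ Q : (P.freyCurve⁄(AlgebraicClosure ℚ)).Point, P.p • Q = 0 ∧
      Q ∉ AddSubgroup.zmultiples R := by
  by_contra hcon
  push Not at hcon
  have hp := P.pp
  have hcard := Fermat.Agent.Lib.Ell.card_nsmul_eq_zero_rat P.freyCurve (frey_Δ_ne_zero P) P.p hp.pos
  have hfin : Finite {Q : (P.freyCurve⁄(AlgebraicClosure ℚ)).Point // P.p • Q = 0} :=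
    Nat.finite_of_card_ne_zero (by rw [hcard]; exact pow_ne_zero 2 hp.ne_zero)
  have hsurj : Function.Surjective
      (fun i : Fin P.p => (⟨(i : ℕ) • R, by rw [smul_comm, hR, nsmul_zero]⟩ :
        {Q : (P.freyCurve⁄(AlgebraicClosure ℚ)).Point // P.p • Q = 0})) := by
    intro u
    obtain ⟨n, hn⟩ := AddSubgroup.mem_zmultiples_iff.1 (hcon u.1 u.2)
    have hp0 : (0 : ℤ) < P.p := by exact_mod_cast hp.pos
    refine ⟨⟨(n % P.p).toNat, ?_⟩, ?_⟩
    · have h1 := Int.emod_lt_of_pos n hp0
      have h2 := Int.emod_nonneg n hp0.ne'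
      omega
    · have h2 := Int.emod_nonneg n hp0.ne'
      apply Subtype.ext
      change (n % P.p).toNat • R = u.1
      rw [← hn, ← natCast_zsmul, Int.toNat_of_nonneg h2]
      conv_rhs => rw [← Int.emod_add_mul_ediv n P.p, add_zsmul, mul_zsmul', natCast_zsmul, hR,
        zsmul_zero, add_zero]
  have h1 := Nat.card_le_card_of_surjective _ hsurj
  rw [hcard, Nat.card_eq_fintype_card, Fintype.card_fin] at h1
  have := hp.one_lt
  nlinarith

/-- **RAM2, sharp form**: at every place above `2`, some inertia element moves some `p`-torsion point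
of the Frey curve. -/
theorem frey_ramified_two_at (P : FreyPackage) (A : ValuationSubring (AlgebraicClosure ℚ))
    (hA : A.LiesOverPrime 2) :
    ∃ σ ∈ A.inertiaSubgroupIn ℚ, ∃ x : (P.freyCurve⁄(AlgebraicClosure ℚ)).Point,
      P.p • x = 0 ∧ σ • x ≠ x := by
  by_contra hcon
  push Not at hcon
  have h2 : A.valuation (2 : AlgebraicClosure ℚ) < 1 := by
    have := A.mem_nonunits_iff.mp hA
    simpa using this
  have hp2 : P.p ≠ 2 := by have := P.hp5; omega
  have h := frey_isXY2 (K := AlgebraicClosure ℚ) P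
  have hm1 := frey_val_a₄_lt A.valuation P h2
  have hm0 := frey_a₄_ne_zero (K := AlgebraicClosure ℚ) P
  have hb := frey_val_b₂_two A.valuation P h2
  have hvp := frey_val_p_two A.valuation P h2
  -- a torsion point reducing to the node
  obtain ⟨R, hR0, hpR, hlt⟩ : ∃ R : (P.freyCurve⁄(AlgebraicClosure ℚ)).Point,
      R ≠ 0 ∧ P.p • R = 0 ∧ A.valuation (Xc 0 R) < 1 := by
    by_contra hno
    push Not at hno
    have hunit : ∀ Q : (P.freyCurve⁄(AlgebraicClosure ℚ)).Point, Q ≠ 0 → P.p • Q = 0 →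
        A.valuation (Xc 0 Q) = 1 := fun Q hQ hpQ =>
      le_antisymm (intX h hm1 hm0 hb P.pp hp2 hvp hQ hpQ) (hno Q hQ hpQ)
    obtain ⟨R, hpR, hR⟩ := frey_exists_indep P 0 (nsmul_zero _)
    have hR0 : R ≠ 0 := by
      rintro rfl
      exact hR (zero_mem _)
    obtain ⟨Q, hpQ, hQ⟩ := frey_exists_indep P R hpR
    have hQ0 : Q ≠ 0 := by
      rintro rfl
      exact hQ (zero_mem _)
    exact hQ (cyclic_of_all_unit A h hm1 hm0 hb P.pp hp2 hvp hunit hR0 hpR hQ0 hpQ)
  have hN := node_gt h hm1 hm0 hb P.pp hp2 hR0 hpR hlt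
  have hx0 : Xc 0 R ≠ 0 := (Valuation.ne_zero_iff _).mp (lt_of_le_of_lt zero_le hN).ne'
  have hfix : Xc 0 R ∈ IntermediateField.fixedField (A.inertiaSubgroupIn ℚ) := by
    rw [IntermediateField.mem_fixedField_iff]
    intro σ hσ
    have h1 := Xc_smul P.freyCurve σ 0 R
    rw [_root_.map_zero] at h1
    rw [← h1, hcon σ hσ R hpR]
  obtain ⟨j, hj⟩ := Fermat.Agent.S36R.K0L.exists_zpow' A Nat.prime_two hA hfix hx0
  exact node_contra h hm1 hm0 hb P.pp hp2 2 two_ne_zero h2 (ValRat.frey_val_a₄ _ P h2) hR0 hpR hlt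
    ⟨j, by simpa using hj⟩

/-- **RAM2**: the mod `p` representation of the Frey curve is ramified at `2`. -/
theorem frey_ramified_two (P : FreyPackage) : ¬ P.GaloisRepUnramifiedAt 2 := by
  intro hun
  obtain ⟨A, hA⟩ := exists_liesOverPrime_Qbar Nat.prime_two
  obtain ⟨σ, hσ, x, hx, hne⟩ := frey_ramified_two_at P A hA
  have h1 := hun A hA σ hσ ⟨x, (mem_torsionBy_iff_nsmul _ _ _).2 hx⟩
  exact hne (congrArg Subtype.val h1)

end frey

end Fermat.Agent.S43.Ram2
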