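import Mathlib

/-!
# S43 / RAM2, abstract part: the `x`-coordinate on the smooth locus of a nodal cubic

`x : G → k` satisfies the `x`-only addition laws of `y² = 4x³ + b x²` (`b ≠ 0`), never vanishes off `0`
and separates points up to sign.  If `G` is killed by an odd prime `p`, then `G` is cyclic.
The proof uses `w R = b / x R + 2` (`= u + u⁻¹` for the multiplicative parameter `u`), which satisfies
`w (R + S) + w (R - S) = w R * w S`.
-/

set_option autoImplicit false

namespace Fermat.Agent.S43.Ram2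

variable {k : Type*} [Field k] {G : Type*} [AddCommGroup G]

/-- `x`-only group law on the smooth locus of `y² = 4x³ + b x²`. -/
structure IsNodeX (x : G → k) (b : k) : Prop where
  zero : x 0 = 0
  ne_zero : ∀ P, P ≠ 0 → x P ≠ 0
  neg : ∀ P, x (-P) = x P
  inj : ∀ P Q, P ≠ 0 → Q ≠ 0 → x P = x Q → P = Q ∨ P = -Q
  dbl : ∀ P, P ≠ 0 → P + P ≠ 0 → x (P + P) * (4 * x P ^ 3 + b * x P ^ 2) = (x P ^ 2) ^ 2
  add : ∀ P Q, P ≠ 0 → Q ≠ 0 → x P ≠ x Q →
    (x (P + Q) + x (P - Q)) * (x P - x Q) ^ 2 = 2 * (x P + x Q) * (x P * x Q) + b * (x P * x Q)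
  mul : ∀ P Q, P ≠ 0 → Q ≠ 0 → x P ≠ x Q →
    x (P + Q) * x (P - Q) * (x P - x Q) ^ 2 = (x P * x Q) ^ 2

/-- the trace coordinate `u + u⁻¹`. -/
def wc (x : G → k) (b : k) (R : G) : k := b / x R + 2

variable {x : G → k} {b : k}

theorem wc_zero (h : IsNodeX x b) : wc x b 0 = 2 := by
  simp [wc, h.zero]

theorem wc_neg (h : IsNodeX x b) (R : G) : wc x b (-R) = wc x b R := by
  simp [wc, h.neg]

theorem wc_dbl (h : IsNodeX x b) (h2 : ∀ P : G, P ≠ 0 → P + P ≠ 0) (R : G) (hR : R ≠ 0) :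
    wc x b (R + R) + 2 = wc x b R * wc x b R := by
  have hx := h.ne_zero R hR
  have hx2 := h.ne_zero _ (h2 R hR)
  have hd := h.dbl R hR (h2 R hR)
  have key : x (R + R) * (4 * x R + b) = x R ^ 2 := by
    apply mul_right_cancel₀ (pow_ne_zero 2 hx)
    linear_combination hd
  unfold wc
  field_simp
  linear_combination (-b) * key

theorem wc_add_generic (h : IsNodeX x b) (R S : G) (hR : R ≠ 0) (hS : S ≠ 0) (hne : x R ≠ x S) :
    wc x b (R + S) + wc x b (R - S) = wc x b R * wc x b S := by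
  have hx := h.ne_zero R hR
  have hy := h.ne_zero S hS
  have hp0 : R + S ≠ 0 := by
    intro h0
    apply hne
    rw [eq_neg_of_add_eq_zero_left h0, h.neg]
  have hm0 : R - S ≠ 0 := by
    intro h0
    apply hne
    rw [sub_eq_zero.mp h0]
  have hA := h.ne_zero _ hp0
  have hB := h.ne_zero _ hm0
  have hadd := h.add R S hR hS hne
  have hmul := h.mul R S hR hS hne
  have hd : x R - x S ≠ 0 := sub_ne_zero.mpr hne
  have key : (x (R + S) + x (R - S)) * (x R * x S) =
      x (R + S) * x (R - S) * (b + 2 * x R + 2 * x S) := by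
    apply mul_right_cancel₀ (pow_ne_zero 2 hd)
    linear_combination (x R * x S) * hadd - (b + 2 * x R + 2 * x S) * hmul
  unfold wc
  field_simp
  linear_combination b * key

/-- the d'Alembert functional equation for `wc`. -/
theorem wc_add (h : IsNodeX x b) (h2 : ∀ P : G, P ≠ 0 → P + P ≠ 0) (R S : G) :
    wc x b (R + S) + wc x b (R - S) = wc x b R * wc x b S := by
  by_cases hR : R = 0
  · subst hR
    rw [zero_add, zero_sub, wc_neg h, wc_zero h]; ring
  by_cases hS : S = 0
  · subst hS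
    rw [add_zero, sub_zero, wc_zero h]; ring
  by_cases hne : x R = x S
  · rcases h.inj R S hR hS hne with rfl | rfl
    · rw [sub_self, wc_zero h]
      exact wc_dbl h h2 R hR
    · rw [neg_add_cancel, wc_zero h, wc_neg h, ← neg_add', wc_neg h, add_comm]
      exact wc_dbl h h2 S hS
  · exact wc_add_generic h R S hR hS hne

theorem wc_nsmul (h : IsNodeX x b) (h2 : ∀ P : G, P ≠ 0 → P + P ≠ 0) (P : G) {t : k} (ht : t ≠ 0)
    (htw : wc x b P = t + t⁻¹) : ∀ n : ℕ, wc x b (n • P) = t ^ n + t⁻¹ ^ n := by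
  intro n
  induction n using Nat.twoStepInduction with
  | zero => rw [zero_nsmul, wc_zero h]; norm_num
  | one => simpa using htw
  | more n ih0 ih1 =>
    have hW := wc_add h h2 ((n + 1) • P) P
    have e1 : (n + 1) • P + P = (n + 2) • P := by rw [← succ_nsmul]
    have e2 : (n + 1) • P - P = n • P := by rw [succ_nsmul, add_sub_cancel_right]
    rw [e1, e2, ih0, ih1, htw] at hW
    have e3 : t * t⁻¹ = 1 := mul_inv_cancel₀ ht
    have : wc x b ((n + 2) • P) = (t ^ (n + 1) + t⁻¹ ^ (n + 1)) * (t + t⁻¹) - (t ^ n + t⁻¹ ^ n) := by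
      linear_combination hW
    rw [this]
    linear_combination (t ^ n + t⁻¹ ^ n) * e3

theorem exists_param [IsAlgClosed k] (w : k) : ∃ t : k, t ≠ 0 ∧ w = t + t⁻¹ := by
  obtain ⟨t, ht⟩ := IsAlgClosed.exists_root
    (Polynomial.C (1 : k) * Polynomial.X ^ 2 + Polynomial.C (-w) * Polynomial.X + Polynomial.C 1)
    (by rw [Polynomial.degree_quadratic one_ne_zero]; norm_num)
  simp only [Polynomial.IsRoot, Polynomial.eval_add, Polynomial.eval_mul, Polynomial.eval_C,
    Polynomial.eval_pow, Polynomial.eval_X] at ht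
  have ht0 : t ≠ 0 := by
    rintro rfl
    simp at ht
  refine ⟨t, ht0, ?_⟩
  field_simp
  linear_combination -ht

/-- the parameter of a nonzero point killed by `p` is a primitive `p`-th root of unity. -/
theorem param_pow (h : IsNodeX x b) (h2 : ∀ P : G, P ≠ 0 → P + P ≠ 0) {p : ℕ} {P : G}
    (hpP : p • P = 0) {t : k} (ht : t ≠ 0) (htw : wc x b P = t + t⁻¹) : t ^ p = 1 := by
  have h1 := wc_nsmul h h2 P ht htw p
  rw [hpP, wc_zero h, inv_pow] at h1
  have h0 : t ^ p ≠ 0 := pow_ne_zero _ ht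
  have h3 : (t ^ p - 1) ^ 2 = 0 := by
    field_simp at h1
    linear_combination -h1
  exact sub_eq_zero.mp (pow_eq_zero_iff two_ne_zero |>.mp h3)

theorem param_ne_one (h : IsNodeX x b) (hb : b ≠ 0) {P : G} (hP : P ≠ 0) {t : k}
    (htw : wc x b P = t + t⁻¹) : t ≠ 1 := by
  rintro rfl
  have hx := h.ne_zero P hP
  unfold wc at htw
  have : b / x P = 0 := by
    have e : (1 : k) + 1⁻¹ = 2 := by norm_num
    rw [e] at htw
    linear_combination htw
  rcases div_eq_zero_iff.mp this with h1 | h1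
  · exact hb h1
  · exact hx h1

/-- **cyclicity** -/
theorem mem_zmultiples_of_isNodeX [IsAlgClosed k] (h : IsNodeX x b) (hb : b ≠ 0) {p : ℕ}
    (hp : p.Prime) (hp2 : p ≠ 2) (hG : ∀ P : G, p • P = 0) {P Q : G} (hP : P ≠ 0) (hQ : Q ≠ 0) :
    Q ∈ AddSubgroup.zmultiples P := by
  have h2 : ∀ R : G, R ≠ 0 → R + R ≠ 0 := by
    intro R hR h0
    apply hR
    have hc : Nat.Coprime 2 p := by
      rw [Nat.coprime_comm]
      exact (Nat.Prime.coprime_iff_not_dvd hp).mpr (fun hd =>
        hp2 ((Nat.prime_dvd_prime_iff_eq hp Nat.prime_two).mp hd))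
    have h3 : (2 : ℤ) • R = 0 := by rw [two_zsmul]; exact h0
    have h4 : (p : ℤ) • R = 0 := by rw [natCast_zsmul]; exact hG R
    have h5 : IsCoprime (2 : ℤ) (p : ℤ) := by exact_mod_cast Nat.isCoprime_iff_coprime.mpr hc
    obtain ⟨u, v, huv⟩ := h5
    have : (1 : ℤ) • R = 0 := by
      rw [← huv, add_zsmul, mul_zsmul, mul_zsmul, h3, h4, zsmul_zero, zsmul_zero, add_zero]
    simpa using this
  obtain ⟨t, ht0, htw⟩ := exists_param (wc x b P)
  obtain ⟨s, hs0, hsw⟩ := exists_param (wc x b Q)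
  have htp := param_pow h h2 (hG P) ht0 htw
  have hsp := param_pow h h2 (hG Q) hs0 hsw
  have ht1 := param_ne_one h hb hP htw
  have hprim : IsPrimitiveRoot t p := by
    have := orderOf_eq_prime htp ht1 (hp := ⟨hp⟩)
    rw [← this]
    exact IsPrimitiveRoot.orderOf t
  have : NeZero p := ⟨hp.ne_zero⟩
  obtain ⟨i, _, hi⟩ := hprim.eq_pow_of_pow_eq_one hsp
  have hw : wc x b Q = wc x b (i • P) := by
    rw [wc_nsmul h h2 P ht0 htw i, hsw, ← hi, inv_pow]
  have hxQ := h.ne_zero Q hQ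
  have hdiv : b / x Q = b / x (i • P) := by
    unfold wc at hw
    exact add_right_cancel hw
  have hne : b / x Q ≠ 0 := div_ne_zero hb hxQ
  have hxi : x (i • P) ≠ 0 := by
    intro h0
    rw [h0, div_zero] at hdiv
    exact hne hdiv
  have hi0 : i • P ≠ 0 := by
    intro h0
    rw [h0] at hxi
    exact hxi h.zero
  have hxx : x Q = x (i • P) := by
    field_simp at hdiv
    exact hdiv.symm
  rcases h.inj Q (i • P) hQ hi0 hxx with h1 | h1
  · rw [h1]
    exact AddSubgroup.nsmul_mem_zmultiples P i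
  · rw [h1]
    exact neg_mem (AddSubgroup.nsmul_mem_zmultiples P i)

end Fermat.Agent.S43.Ram2
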