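import Mathlib

/-!
# S43 / SizeAbs : the abstract algebra of "Theorem G" (SIZE) of report 420

`X = V_{p^∞}(L s²)_m`, `X' = V_{p^∞}(L)_m`, `Y = X'³`, `δ : Y → X` the three degeneracy maps, `δt` its transpose,
`j x = (s x, -T x, x)`, `σ` a generator of the (finite, order dividing `P`) image of inertia at `s`.

* `norm_ker_eq_zero` : the norm `N(σ)` kills the divisible group `ker δt`.
* `size_abs` : every `δ (j x)`, `p x = 0`, is the norm of a `p`-torsion element of `X`.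
* `normHom` and its three properties : the concrete norm `∑_{i<P} σ^i`.
-/

set_option autoImplicit false

namespace Fermat.Agent.S43.SizeAbs

variable {X Y X' : Type*} [AddCommGroup X] [AddCommGroup Y] [AddCommGroup X']

/-- `N(σ)` kills `ker δt`. -/
theorem norm_ker_eq_zero (P R : ℕ) (δ : Y →+ X) (δt : X →+ Y) (σ Nσ : X →+ X)
    (hN1 : ∀ x, σ (Nσ x) = Nσ x)
    (hN3 : ∀ x, δt (Nσ x) = P • δt x)
    (hY : ∀ x, σ x = x → ∃ y, δ y = x)
    (hK : ∀ y, δt (δ y) = 0 → R • y = 0)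
    (hdivR : ∀ x, δt x = 0 → ∃ y, δt y = 0 ∧ R • y = x)
    (ν : X) (hν : δt ν = 0) : Nσ ν = 0 := by
  obtain ⟨ν', hν', rfl⟩ := hdivR ν hν
  obtain ⟨y, hy⟩ := hY (Nσ ν') (hN1 ν')
  have h1 : δt (δ y) = 0 := by rw [hy, hN3, hν', smul_zero]
  rw [map_nsmul, ← hy, ← map_nsmul, hK y h1, map_zero]

/-- **Theorem G (abstract).** -/
theorem size_abs (p P R : ℕ) (δ : Y →+ X) (δt : X →+ Y) (j : X' →+ Y) (σ Nσ : X →+ X)
    (hN1 : ∀ x, σ (Nσ x) = Nσ x)
    (hN2 : ∀ x, σ x = x → Nσ x = P • x)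
    (hN3 : ∀ x, δt (Nσ x) = P • δt x)
    (hσδ : ∀ y, σ (δ y) = δ y)
    (hY : ∀ x, σ x = x → ∃ y, δ y = x)
    (hK : ∀ y, δt (δ y) = 0 → R • y = 0)
    (hdivR : ∀ x, δt x = 0 → ∃ y, δt y = 0 ∧ R • y = x)
    (hdivp : ∀ x, δt x = 0 → ∃ y, δt y = 0 ∧ p • y = x)
    (hdivX' : ∀ x : X', ∃ y, P • y = x)
    (hA : ∀ y : X', p • (P • y) = 0 → δt (δ (j (p • y))) = 0)
    (x : X') (hx : p • x = 0) : ∃ w : X, p • w = 0 ∧ Nσ w = δ (j x) := by
  obtain ⟨x'', rfl⟩ := hdivX' x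
  have h1 : δt (-(p • δ (j x''))) = 0 := by
    rw [map_neg, ← map_nsmul, ← map_nsmul, hA x'' hx, neg_zero]
  obtain ⟨ν, hν, hpν⟩ := hdivp _ h1
  refine ⟨δ (j x'') + ν, ?_, ?_⟩
  · rw [smul_add, hpν, add_neg_cancel]
  · rw [map_add, norm_ker_eq_zero P R δ δt σ Nσ hN1 hN3 hY hK hdivR ν hν, add_zero,
      hN2 _ (hσδ _), map_nsmul, map_nsmul]

/-- the concrete norm `∑_{i<P} σ^i`. -/
noncomputable def normHom (σ : X →+ X) (P : ℕ) : X →+ X where
  toFun x := ∑ i ∈ Finset.range P, σ^[i] x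
  map_zero' := by simp [iterate_map_zero]
  map_add' x y := by simp [iterate_map_add, Finset.sum_add_distrib]

theorem normHom_apply (σ : X →+ X) (P : ℕ) (x : X) :
    normHom σ P x = ∑ i ∈ Finset.range P, σ^[i] x := rfl

theorem normHom_fixed (σ : X →+ X) (P : ℕ) (hσP : ∀ x, σ^[P] x = x) (x : X) :
    σ (normHom σ P x) = normHom σ P x := by
  rw [normHom_apply, map_sum]
  have h : ∀ i, σ (σ^[i] x) = σ^[i + 1] x := fun i => (Function.iterate_succ_apply' σ i x).symm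
  simp only [h]
  have e : ∑ i ∈ Finset.range P, σ^[i + 1] x + σ^[0] x
      = ∑ i ∈ Finset.range P, σ^[i] x + σ^[P] x :=
    (Finset.sum_range_succ' (fun i => σ^[i] x) P).symm.trans (Finset.sum_range_succ _ _)
  rw [hσP, Function.iterate_zero, id] at e
  exact add_right_cancel e

theorem normHom_of_fixed (σ : X →+ X) (P : ℕ) (x : X) (hx : σ x = x) :
    normHom σ P x = P • x := by
  rw [normHom_apply]
  have h : ∀ i, σ^[i] x = x := fun i => Function.iterate_fixed hx i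
  simp only [h, Finset.sum_const, Finset.card_range]

theorem normHom_comp (σ : X →+ X) (P : ℕ) (δt : X →+ Y) (hδtσ : ∀ x, δt (σ x) = δt x) (x : X) :
    δt (normHom σ P x) = P • δt x := by
  rw [normHom_apply, map_sum]
  have h : ∀ i, δt (σ^[i] x) = δt x := by
    intro i
    induction i with
    | zero => rfl
    | succ i ih => rw [Function.iterate_succ_apply', hδtσ, ih]
  simp only [h, Finset.sum_const, Finset.card_range]

end Fermat.Agent.S43.SizeAbs
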