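import Fermat.Agent.S43.CountFin

/-!
# S43 / TraceY : the Taylor-Wiles variables of route TWX are `w = tr ρ(σ) - 2`

No diagonalisation of `ρ|G_s` is needed.  `σ` (inertia at a TW prime `s`) acts on `L`, `D` is the square root of
the diamond operator `δ_σ`, `E = D⁻¹`, `t = tr ρ_A(σ)`.

* `trace_eq` : local-global `(σ-1)(σ-D²) = 0` + Cayley-Hamilton for the twisted action `Eσ`
  (`(Eσ)² - t (Eσ) + 1 = 0`) give `t = D + E` on `L`;
* `w_eq` : hence `w = t - 2` acts as `E (D-1)²`;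
* `count_false_w` : `CountAbs.count_false` for `(w, (P+1)/2, 2^r d₀)` from the properties of `x = D - 1`
  (`x^P = 0`, `∏ x^(P-1) ≠ 0`, `dim L/(x)L ≤ d₀`).
-/

set_option autoImplicit false

namespace Fermat.Agent.S43.TraceY

open Module Fermat.Agent.S43.CountAbs

section trace

variable {A L : Type*} [CommRing A] [AddCommGroup L] [Module A L]

/-- **The trace identity.** -/
theorem trace_eq (σ : L →ₗ[A] L) (hσ : Function.Surjective σ) (t D E : A) (hDE : D * E = 1)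
    (hLG : ∀ l, σ (σ l) - (1 + D ^ 2) • σ l + D ^ 2 • l = 0)
    (hCH : ∀ l, E ^ 2 • σ (σ l) - (t * E) • σ l + l = 0) (l : L) :
    t • l = (D + E) • l := by
  obtain ⟨l', rfl⟩ := hσ l
  have h1 : σ (σ l') = (1 + D ^ 2) • σ l' - D ^ 2 • l' := by
    have := hLG l'
    rw [sub_add, sub_eq_zero] at this
    exact this
  have h2 := hCH l'
  rw [h1, smul_sub, smul_smul, smul_smul] at h2
  have e1 : E ^ 2 * D ^ 2 = 1 := by
    have : E ^ 2 * D ^ 2 = (D * E) ^ 2 := by ring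
    rw [this, hDE, one_pow]
  rw [e1, one_smul] at h2
  have h3 : (E ^ 2 * (1 + D ^ 2) - t * E) • σ l' = 0 := by
    rw [sub_smul]
    have : (E ^ 2 * (1 + D ^ 2)) • σ l' - l' - (t * E) • σ l' + l' = 0 := h2
    have h4 : (E ^ 2 * (1 + D ^ 2)) • σ l' - (t * E) • σ l' =
        (E ^ 2 * (1 + D ^ 2)) • σ l' - l' - (t * E) • σ l' + l' := by abel
    rw [h4, this]
  have h5 : D * (E ^ 2 * (1 + D ^ 2) - t * E) = D + E - t := by
    have : D * (E ^ 2 * (1 + D ^ 2) - t * E) =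
        (D * E) * E + (D * E) ^ 2 * D - t * (D * E) := by ring
    rw [this, hDE]; ring
  have h6 : (D + E - t) • σ l' = 0 := by
    rw [← h5, mul_smul, h3, smul_zero]
  rw [sub_smul, sub_eq_zero] at h6
  exact h6.symm

/-- `w = t - 2` acts as `E (D-1)²`. -/
theorem w_eq (t D E : A) (hDE : D * E = 1) (ht : ∀ l : L, t • l = (D + E) • l) (l : L) :
    (t - 2) • l = (E * (D - 1) ^ 2) • l := by
  have : E * (D - 1) ^ 2 = (D * E) * D - 2 * (D * E) + E := by ring
  rw [this, hDE, sub_smul, ht]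
  rw [← sub_smul]
  congr 1
  ring

end trace

section count

variable {k A L : Type*} [Field k] [CommRing A] [Algebra k A] [AddCommGroup L] [Module k L]
  [Module A L] [IsScalarTower k A L] [FiniteDimensional k L]

theorem pow_smul_congr {u v : A} (h : ∀ l : L, u • l = v • l) (m : ℕ) (l : L) :
    u ^ m • l = v ^ m • l := by
  induction m generalizing l with
  | zero => simp
  | succ m ih => rw [pow_succ, pow_succ, mul_smul, mul_smul, h, ih]

theorem prod_smul_congr {ι : Type*} (s : Finset ι) {u v : ι → A} (h : ∀ i, ∀ l : L, u i • l = v i • l)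
    (l : L) : (∏ i ∈ s, u i) • l = (∏ i ∈ s, v i) • l := by
  classical
  induction s using Finset.induction_on generalizing l with
  | empty => simp
  | insert i s hi ih =>
    rw [Finset.prod_insert hi, Finset.prod_insert hi, mul_smul, mul_smul, ih, h]

variable {r : ℕ} (x w D E : Fin r → A)

/-- the three hypotheses on the Taylor-Wiles variables, for `w`. -/
theorem w_props (P' d₀ : ℕ) (hP' : 1 ≤ P') (hDE : ∀ i, D i * E i = 1)
    (hw : ∀ i (l : L), w i • l = (E i * x i ^ 2) • l)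
    (hxP : ∀ i (l : L), x i ^ (2 * P' - 1) • l = 0)
    (hxA : ∃ v : L, (∏ i, x i ^ (2 * P' - 1 - 1)) • v ≠ 0)
    (hxB : cd k (⨆ i, mulTop L (x i)) ≤ d₀) :
    (∀ i (l : L), w i ^ P' • l = 0) ∧ (∃ v : L, (∏ i, w i ^ (P' - 1)) • v ≠ 0) ∧
      cd k (⨆ i, mulTop L (w i)) ≤ 2 ^ r * d₀ := by
  refine ⟨fun i l => ?_, ?_, ?_⟩
  · rw [pow_smul_congr (hw i) P' l, mul_pow, ← pow_mul]
    have : 2 * P' = (2 * P' - 1) + 1 := by omega
    rw [this, pow_succ, mul_comm (x i ^ _), ← mul_assoc, mul_smul, hxP, smul_zero]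
  · obtain ⟨v, hv⟩ := hxA
    refine ⟨v, fun h0 => hv ?_⟩
    have h1 : (∏ i, w i ^ (P' - 1)) • v = (∏ i, (E i * x i ^ 2) ^ (P' - 1)) • v :=
      prod_smul_congr Finset.univ (fun i l => pow_smul_congr (hw i) _ l) v
    rw [h1] at h0
    have h2 : (∏ i, D i ^ (P' - 1)) * (∏ i, (E i * x i ^ 2) ^ (P' - 1)) =
        ∏ i, x i ^ (2 * P' - 1 - 1) := by
      rw [← Finset.prod_mul_distrib]
      refine Finset.prod_congr rfl fun i _ => ?_
      rw [mul_pow, ← mul_assoc, ← mul_pow, hDE, one_pow, one_mul, ← pow_mul]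
      congr 1
      omega
    rw [← h2, mul_smul, h0, smul_zero]
  · have hsq : ∀ i, mulTop L (x i ^ 2) ≤ ⨆ i, mulTop L (w i) := by
      intro i
      rintro _ ⟨l, rfl⟩
      simp only [LinearMap.lsmul_apply]
      refine Submodule.mem_iSup_of_mem i ⟨D i • l, ?_⟩
      simp only [LinearMap.lsmul_apply]
      rw [hw, smul_smul]
      congr 1
      calc E i * x i ^ 2 * D i = (D i * E i) * x i ^ 2 := by ring
        _ = x i ^ 2 := by rw [hDE, one_mul]
    have h1 := cd_le_pow_mul (k := k) x 2 (⨆ i, mulTop L (w i)) hsq Finset.univ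
    simp only [Finset.mem_univ, iSup_pos, Finset.card_univ, Fintype.card_fin] at h1
    have h2 : cd k ((⨆ i, mulTop L (w i)) ⊔ ⨆ i, mulTop L (x i)) ≤ d₀ :=
      (cd_anti le_sup_right).trans hxB
    exact h1.trans (Nat.mul_le_mul_left _ h2)

/-- **The contradiction of route TWX with `w = tr ρ(σ) - 2`**; `P = 2 P' - 1` is the order of the cyclic factors
of `Δ_Q`, `x i = D i - 1`. -/
theorem count_false_w {t g : ℕ} (P' d₀ : ℕ) (hP' : 1 ≤ P') (a b c : Fin t → A) (z : Fin g → A)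
    (hDE : ∀ i, D i * E i = 1)
    (hw : ∀ i (l : L), w i • l = (E i * x i ^ 2) • l)
    (hxP : ∀ i (l : L), x i ^ (2 * P' - 1) • l = 0)
    (hxA : ∃ v : L, (∏ i, x i ^ (2 * P' - 1 - 1)) • v ≠ 0)
    (hxB : cd k (⨆ i, mulTop L (x i)) ≤ d₀)
    (hrel : ∀ j (l : L), (a j ^ 2 + b j * c j) • l = 0)
    (hnb : ∀ j, ∃ n, ∀ l : L, b j ^ n • l = 0)
    (hnc : ∀ j, ∃ n, ∀ l : L, c j ^ n • l = 0)
    (hnz : ∀ i, ∃ n, ∀ l : L, z i ^ n • l = 0)
    (hy : ∀ i, mulTop L (w i) ≤ (⨆ j, mulTop L (b j)) ⊔ (⨆ j, mulTop L (c j)) ⊔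
      (⨆ i, mulTop L (z i)) ⊔ (⨆ j, mulTop L (a j)))
    (hdim : 2 * t + g < r)
    (hP : 2 ^ r * d₀ * 2 ^ t * (2 ^ r * d₀ * (r + 1)) ^ (2 * t + g) < P') : False := by
  obtain ⟨h1, h2, h3⟩ := w_props (k := k) x w D E P' d₀ hP' hDE hw hxP hxA hxB
  exact count_false (k := k) P' (2 ^ r * d₀) a b c z w hrel h1 hnb hnc hnz hy h2 h3 hdim hP

end count

end Fermat.Agent.S43.TraceY
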